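import Mathlib
import Fermat.Prelude.Def_FLTPrelim_Ramification
import Fermat.Agent.S54.Frob

/-!
# S13, piece G: a normal open subgroup of `Gal(ℚ̄/ℚ)` containing an inertia group at every prime
is everything (Minkowski)
-/

set_option autoImplicit false
set_option linter.style.haveILetI false

namespace Fermat.Agent.S13

open Pointwise Fermat.Agent.S54

local notation "Lb" => AlgebraicClosure ℚ
local notation "Gb" => (AlgebraicClosure ℚ ≃ₐ[ℚ] AlgebraicClosure ℚ)
local notation "Bb" => integralClosure ℤ (AlgebraicClosure ℚ)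

attribute [local instance] isAlgebraic_Lb isAlgClosure_Lb isGalois_Lb

/-- an element of the Galois group acting trivially on `ℤ̄ / centre A` lies in the inertia group. -/
theorem global_mem_inertia (A : ValuationSubring Lb) {ℓ : ℕ} (hℓ : ℓ.Prime)
    (hA : A.LiesOverPrime ℓ) (σ : Gb) (hσ : σ • centre A = centre A)
    (htriv : ∀ b : Bb, σ • b - b ∈ centre A) : σ ∈ A.inertiaSubgroupIn ℚ := by
  have hσinv : σ⁻¹ • centre A = centre A := by
    conv_lhs => rw [← hσ]
    rw [inv_smul_smul]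
  have hdec : σ ∈ A.decompositionSubgroup ℚ := by
    rw [MulAction.mem_stabilizer_iff]
    ext x
    rw [ValuationSubring.mem_pointwise_smul_iff_inv_smul_mem]
    constructor
    · intro h
      have := smul_mem_of_stabilizer A hℓ hA σ hσ _ h
      simpa using this
    · intro h
      exact smul_mem_of_stabilizer A hℓ hA σ⁻¹ hσinv _ h
  refine ⟨⟨σ, hdec⟩, ?_, rfl⟩
  show (⟨σ, hdec⟩ : A.decompositionSubgroup ℚ) ∈ A.inertiaSubgroup ℚ
  rw [ValuationSubring.inertiaSubgroup, MonoidHom.mem_ker]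
  ext x
  obtain ⟨a, rfl⟩ := IsLocalRing.residue_surjective x
  show (⟨σ, hdec⟩ : A.decompositionSubgroup ℚ) • IsLocalRing.residue A a = IsLocalRing.residue A a
  rw [← IsLocalRing.ResidueField.residue_smul]
  obtain ⟨y, hyB, hy, hya⟩ := exists_mul_mem A hℓ hA a.1 a.2
  let Y : A := incl A ⟨y, hyB⟩
  let Z : A := incl A ⟨y * a.1, hya⟩
  have hYZ : Y * a = Z := Subtype.ext rfl
  have hres : ∀ b : Bb, IsLocalRing.residue A ((⟨σ, hdec⟩ : A.decompositionSubgroup ℚ) • incl A b) =
      IsLocalRing.residue A (incl A b) := by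
    intro b
    rw [← sub_eq_zero, ← map_sub, IsLocalRing.residue_eq_zero_iff]
    exact htriv b
  have hY0 : IsLocalRing.residue A Y ≠ 0 := by
    rw [Ne, IsLocalRing.residue_eq_zero_iff]
    intro hmem
    apply hy
    rw [ValuationSubring.mem_nonunits_iff_exists_mem_maximalIdeal]
    exact ⟨_, hmem⟩
  have h1 : IsLocalRing.residue A ((⟨σ, hdec⟩ : A.decompositionSubgroup ℚ) • (Y * a)) =
      IsLocalRing.residue A (Y * a) := by
    rw [hYZ]; exact hres _
  rw [smul_mul', map_mul, map_mul, hres] at h1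
  exact mul_left_cancel₀ hY0 h1


/-- key lifting lemma: if `H` is a closed normal subgroup containing the inertia group at `A`, then
every `τ` acting trivially on `(ℤ̄)^H` modulo the centre of `A` lies in `H`. -/
theorem global_mem_of_inertia_le (H : Subgroup Gb) (hHn : H.Normal) (hHc : IsClosed (H : Set Gb))
    (A : ValuationSubring Lb) {ℓ : ℕ} (hℓ : ℓ.Prime) (hA : A.LiesOverPrime ℓ)
    (hI : A.inertiaSubgroupIn ℚ ≤ H) (τ : Gb)
    (hτ : ∀ x : Bb, (∀ h ∈ H, h • x = x) → τ • x - x ∈ centre A) : τ ∈ H := by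
  letI : TopologicalSpace Bb := ⊥
  haveI : DiscreteTopology Bb := ⟨rfl⟩
  haveI : ContinuousSMul Gb Bb := by
    rw [continuousSMul_iff_stabilizer_isOpen]
    intro x
    have := stabilizer_isOpen_of_isIntegral (K := ℚ) (L := Lb) (x : Lb)
    convert this using 1
    ext g
    simp only [SetLike.mem_coe, MulAction.mem_stabilizer_iff]
    constructor
    · intro h; exact congrArg Subtype.val h
    · intro h; exact Subtype.ext h
  haveI : ContinuousSMul H Bb := by
    constructor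
    have h1 : Continuous (fun p : Gb × Bb => p.1 • p.2) := continuous_smul
    exact h1.comp ((continuous_subtype_val.comp continuous_fst).prodMk continuous_snd)
  haveI : CompactSpace H := isCompact_iff_compactSpace.mp hHc.isCompact
  let A0 := FixedPoints.subalgebra ℤ Bb H
  haveI : SMulCommClass H A0 Bb := ⟨fun h a b => by
    show h • ((a : Bb) * b) = (a : Bb) * (h • b)
    rw [smul_mul', a.2 h]⟩
  haveI : Algebra.IsInvariant A0 Bb H := ⟨fun b hb => ⟨⟨b, hb⟩, rfl⟩⟩
  -- normality: `τ` and `τ⁻¹` preserve the `H`-fixed elements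
  have hfix : ∀ (ρ : Gb) (x : Bb), (∀ h ∈ H, h • x = x) → ∀ h ∈ H, h • (ρ • x) = ρ • x := by
    intro ρ x hx h hh
    have h1 : (ρ⁻¹ * h * ρ) • x = x := by
      apply hx
      have := hHn.conj_mem h hh ρ⁻¹
      simpa using this
    calc h • (ρ • x) = ρ • ((ρ⁻¹ * h * ρ) • x) := by
          simp only [mul_smul, smul_inv_smul]
      _ = ρ • x := by rw [h1]
  set Q := centre A with hQ
  have hmemA0 : ∀ a : A0, ∀ h ∈ H, h • (a : Bb) = a := fun a h hh => a.2 ⟨h, hh⟩
  have hunder : (τ • Q).under A0 = Q.under A0 := by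
    ext a
    rw [Ideal.mem_comap, Ideal.mem_comap]
    show (a : Bb) ∈ τ • Q ↔ (a : Bb) ∈ Q
    rw [Ideal.mem_pointwise_smul_iff_inv_smul_mem]
    have h1 := hτ (τ⁻¹ • (a : Bb)) (hfix τ⁻¹ _ (hmemA0 a))
    rw [smul_inv_smul] at h1
    constructor
    · intro h
      have := Q.add_mem h1 h
      simpa using this
    · intro h
      have := Q.sub_mem h h1
      simpa using this
  obtain ⟨g, hg⟩ := Algebra.IsInvariant.exists_smul_of_under_eq_of_profinite (A := A0) (G := H)
    (τ • Q) Q hunder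
  set τ1 : Gb := (g : Gb) * τ with hτ1
  have hstab1 : τ1 • Q = Q := by
    rw [hτ1, mul_smul]
    exact hg.symm
  -- `τ1` acts trivially on `A0` modulo `Q`
  have hτ1A0 : ∀ a : A0, τ1 • (a : Bb) - a ∈ Q := by
    intro a
    rw [hτ1, mul_smul, hfix τ _ (hmemA0 a) g g.2]
    exact hτ _ (hmemA0 a)
  let ψ := Ideal.Quotient.stabilizerHom Q (Q.under ℤ) Gb ⟨τ1, hstab1⟩
  have hψ : ∀ b : Bb, ψ (Ideal.Quotient.mk Q b) = Ideal.Quotient.mk Q (τ1 • b) := by
    intro b
    exact Ideal.Quotient.stabilizerHom_apply Q (Q.under ℤ) Gb ⟨τ1, hstab1⟩ b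
  let φ : (Bb ⧸ Q) ≃ₐ[A0 ⧸ Q.under A0] (Bb ⧸ Q) :=
    AlgEquiv.ofRingEquiv (f := ψ.toRingEquiv) (by
      intro r
      obtain ⟨a, rfl⟩ := Ideal.Quotient.mk_surjective r
      show ψ (Ideal.Quotient.mk Q (a : Bb)) = Ideal.Quotient.mk Q (a : Bb)
      rw [hψ, Ideal.Quotient.eq]
      exact hτ1A0 a)
  have hφ : ∀ b : Bb, φ (Ideal.Quotient.mk Q b) = Ideal.Quotient.mk Q (τ1 • b) := hψ
  obtain ⟨γ, hγH, hγQ, hγb⟩ : ∃ γ : Gb, γ ∈ H ∧ γ • Q = Q ∧ ∀ b : Bb, γ • b - τ1 • b ∈ Q := by
    obtain ⟨g', hg'⟩ := Ideal.Quotient.stabilizerHom_surjective_of_profinite (G := H)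
      (Q.under A0) Q φ
    refine ⟨((g' : H) : Gb), (g' : H).2, g'.2, fun b => ?_⟩
    have h1 := DFunLike.congr_fun hg' (Ideal.Quotient.mk Q b)
    rw [Ideal.Quotient.stabilizerHom_apply, hφ, Ideal.Quotient.eq] at h1
    exact h1
  set τ2 : Gb := γ⁻¹ * τ1 with hτ2
  have hinvQ : γ⁻¹ • Q = Q := by
    conv_lhs => rw [← hγQ]
    rw [inv_smul_smul]
  have hstab2 : τ2 • Q = Q := by
    rw [hτ2, mul_smul, hstab1, hinvQ]
  have htriv2 : ∀ b : Bb, τ2 • b - b ∈ Q := by
    intro b
    have h1 : γ⁻¹ • (τ1 • b - γ • b) ∈ γ⁻¹ • Q := by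
      rw [Ideal.smul_mem_pointwise_smul_iff]
      have := Q.neg_mem (hγb b)
      simpa using this
    rw [hinvQ, smul_sub, inv_smul_smul] at h1
    rw [hτ2, mul_smul]
    exact h1
  have h2 : τ2 ∈ H := hI (global_mem_inertia A hℓ hA τ2 hstab2 htriv2)
  have h3 : τ = (g : Gb)⁻¹ * (γ * τ2) := by
    rw [hτ2, hτ1]; group
  rw [h3]
  exact H.mul_mem (H.inv_mem g.2) (H.mul_mem hγH h2)


open NumberField in
theorem eq_top_of_inertia_le
    (H : Subgroup (AlgebraicClosure ℚ ≃ₐ[ℚ] AlgebraicClosure ℚ)) (hH : H.Normal)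
    (L : IntermediateField ℚ (AlgebraicClosure ℚ)) (hL : FiniteDimensional ℚ L)
    (hLH : L.fixingSubgroup ≤ H)
    (hI : ∀ q : ℕ, q.Prime → ∃ A : ValuationSubring (AlgebraicClosure ℚ),
      A.LiesOverPrime q ∧ A.inertiaSubgroupIn ℚ ≤ H) :
    H = ⊤ := by
  have hopen : IsOpen (H : Set Gb) := Subgroup.isOpen_mono hLH L.fixingSubgroup_isOpen
  have hclosed : IsClosed (H : Set Gb) := Subgroup.isClosed_of_isOpen H hopen
  set F : IntermediateField ℚ Lb := IntermediateField.fixedField H with hF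
  have hFH : F.fixingSubgroup = H := InfiniteGalois.fixingSubgroup_fixedField ⟨H, hclosed⟩
  haveI hFfin : FiniteDimensional ℚ F := by
    rw [← InfiniteGalois.isOpen_iff_finite, hFH]
    exact hopen
  haveI hFgal : IsGalois ℚ F := (InfiniteGalois.normal_iff_isGalois F).mp (hFH.symm ▸ hH)
  haveI : NumberField F := { to_charZero := inferInstance, to_finiteDimensional := hFfin }
  by_contra hne
  have h1 : 1 < Module.finrank ℚ F := by
    by_contra hle
    have hpos : 0 < Module.finrank ℚ F := Module.finrank_pos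
    have h1 : Module.finrank ℚ F = 1 := by omega
    rw [IntermediateField.finrank_eq_one_iff] at h1
    apply hne
    rw [← hFH, h1, IntermediateField.fixingSubgroup_bot]
  obtain ⟨p, hp, hram⟩ := NumberField.exists_not_isUnramifiedAt_int_of_isGalois (K := F)
    (𝒪 := 𝓞 F) h1
  obtain ⟨A, hA, hIA⟩ := hI p hp
  let ι : 𝓞 F →+* Bb := RingHom.codRestrict ((algebraMap F Lb).comp (algebraMap (𝓞 F) F))
    (integralClosure ℤ Lb) (fun x => by
      have h1 : IsIntegral ℤ (algebraMap (𝓞 F) F x) := RingOfIntegers.isIntegral_coe x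
      exact h1.map (IsScalarTower.toAlgHom ℤ F Lb))
  have hι : ∀ x : 𝓞 F, ((ι x : Bb) : Lb) = ((x : F) : Lb) := fun x => rfl
  let P : Ideal (𝓞 F) := (centre A).comap ι
  haveI : P.IsPrime := Ideal.comap_isPrime _ _
  have hpP : (p : 𝓞 F) ∈ P := by
    show ι (p : 𝓞 F) ∈ centre A
    rw [mem_centre_iff, map_natCast]
    exact hA
  apply hram P inferInstance hpP
  let _ : MulSemiringAction Gal(F/ℚ) (𝓞 F) := IsIntegralClosure.MulSemiringAction ℤ ℚ F (𝓞 F)
  have := IsGaloisGroup.of_isFractionRing Gal(F/ℚ) ℤ (𝓞 F) ℚ F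
  rw [← Ideal.ramificationIdx_eq_one_iff,
    ← Ideal.ramificationIdxIn_eq_ramificationIdx (P.under ℤ) P Gal(F/ℚ),
    ← Ideal.card_inertia_eq_ramificationIdxIn (G := Gal(F/ℚ)) (P.under ℤ) P,
    Subgroup.card_eq_one, Subgroup.eq_bot_iff_forall]
  intro τ hτ
  obtain ⟨τ', hτ'⟩ := AlgEquiv.restrictNormalHom_surjective Lb τ
  have hmem : τ' ∈ H := by
    apply global_mem_of_inertia_le H hH hclosed A hp hA hIA τ'
    intro x hx
    have hxF : (x : Lb) ∈ F := by
      intro h
      exact congrArg Subtype.val (hx h.1 h.2)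
    have hxint : IsIntegral ℤ (⟨x, hxF⟩ : F) := by
      have h1 : IsIntegral ℤ (algebraMap F Lb ⟨x, hxF⟩) := x.2
      exact (isIntegral_algebraMap_iff (algebraMap F Lb).injective).mp h1
    let x' : 𝓞 F := ⟨⟨x, hxF⟩, hxint⟩
    have h1 : τ • x' - x' ∈ P := hτ x'
    have h2 : ι (τ • x' - x') = τ' • x - x := by
      apply Subtype.ext
      have h3 : algebraMap (𝓞 F) F (τ • x') = τ (algebraMap (𝓞 F) F x') :=
        algebraMap_galRestrict_apply ℤ τ x'
      have h4 : algebraMap F Lb (τ (algebraMap (𝓞 F) F x')) = τ' (x : Lb) := by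
        rw [← hτ']
        exact AlgEquiv.restrictNormal_commutes τ' F _
      rw [map_sub]
      show algebraMap F Lb (algebraMap (𝓞 F) F (τ • x')) - (x : Lb) = τ' (x : Lb) - (x : Lb)
      rw [h3, h4]
    rw [← h2]
    exact h1
  have h5 : τ' ∈ F.fixingSubgroup := hFH.symm ▸ hmem
  rw [← IntermediateField.restrictNormalHom_ker, MonoidHom.mem_ker] at h5
  rw [← hτ']
  exact h5

end Fermat.Agent.S13
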