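import Mathlib

/-!
# S13: linear algebra over `ZMod p` for the final assembly
-/

set_option autoImplicit false

namespace Fermat.Agent.S13

open Module

/-- an endomorphism `g` of a line with `(g - 1)² = 0` is the identity. -/
theorem eq_self_of_sq_of_finrank_one {k U : Type*} [Field k] [AddCommGroup U] [Module k U]
    (h1 : finrank k U = 1) (g : U →ₗ[k] U) (hg : ∀ x, g (g x - x) - (g x - x) = 0) (x : U) :
    g x = x := by
  obtain ⟨v, hv0, hv⟩ := finrank_eq_one_iff'.mp h1
  obtain ⟨c, hc⟩ := hv (g v)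
  have h2 := hg v
  rw [← hc] at h2
  have h3 : ((c - 1) * (c - 1)) • v = 0 := by
    have : g (c • v - v) - (c • v - v) = ((c - 1) * (c - 1)) • v := by
      rw [map_sub, map_smul, ← hc]
      module
    rw [← this]; exact h2
  have h4 : c - 1 = 0 := by
    rcases smul_eq_zero.mp h3 with h | h
    · exact mul_self_eq_zero.mp h
    · exact absurd h hv0
  have h5 : g v = v := by rw [← hc, sub_eq_zero.mp h4, one_smul]
  obtain ⟨a, ha⟩ := hv x
  rw [← ha, map_smul, h5]

variable {p : ℕ} [Fact p.Prime] {V : Type*} [AddCommGroup V] [Module (ZMod p) V] [Finite V]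

theorem finrank_facts (hcard : Nat.card V ≤ p ^ 2) (N : Submodule (ZMod p) V) (h0 : N ≠ ⊥)
    (h1 : N ≠ ⊤) : finrank (ZMod p) N = 1 ∧ finrank (ZMod p) V = 2 := by
  have hp : p.Prime := Fact.out
  have : Module.Finite (ZMod p) V := Module.Finite.of_finite
  have hc : Nat.card V = p ^ finrank (ZMod p) V := by
    have := Module.natCard_eq_pow_finrank (K := ZMod p) (V := V)
    rwa [Nat.card_zmod] at this
  have hle : finrank (ZMod p) V ≤ 2 := by
    rw [hc] at hcard
    exact (Nat.pow_le_pow_iff_right hp.one_lt).mp hcard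
  have hlt : finrank (ZMod p) N < finrank (ZMod p) V := Submodule.finrank_lt h1
  have hne : finrank (ZMod p) N ≠ 0 := by
    intro h
    exact h0 (Submodule.finrank_eq_zero.mp h)
  omega

/-- (LA-i) -/
theorem fix_of_sq_mem_of_inf_eq_bot (hcard : Nat.card V ≤ p ^ 2) (N M : Submodule (ZMod p) V)
    (h0 : N ≠ ⊥) (h1 : N ≠ ⊤) (f : V →ₗ[ZMod p] V) (hfN : ∀ x ∈ N, f x ∈ N)
    (hf : ∀ x, f (f x - x) - (f x - x) ∈ M) (hNM : N ⊓ M = ⊥) : ∀ x ∈ N, f x = x := by
  intro x hx
  have hr := (finrank_facts hcard N h0 h1).1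
  have := eq_self_of_sq_of_finrank_one hr (f.restrict hfN) (fun y => by
    apply Subtype.ext
    have h2 : f (f y.1 - y.1) - (f y.1 - y.1) ∈ N ⊓ M :=
      ⟨N.sub_mem (hfN _ (N.sub_mem (hfN _ y.2) y.2)) (N.sub_mem (hfN _ y.2) y.2), hf y.1⟩
    rw [hNM, Submodule.mem_bot] at h2
    simpa using h2) ⟨x, hx⟩
  exact congrArg Subtype.val this

/-- (LA-ii) -/
theorem sub_mem_of_sq_mem (hcard : Nat.card V ≤ p ^ 2) (N : Submodule (ZMod p) V)
    (h0 : N ≠ ⊥) (h1 : N ≠ ⊤) (f : V →ₗ[ZMod p] V) (hfN : ∀ x ∈ N, f x ∈ N)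
    (hf : ∀ x, f (f x - x) - (f x - x) ∈ N) : ∀ x, f x - x ∈ N := by
  intro x
  obtain ⟨hr1, hr2⟩ := finrank_facts hcard N h0 h1
  have : Module.Finite (ZMod p) V := Module.Finite.of_finite
  have hq : finrank (ZMod p) (V ⧸ N) = 1 := by
    have := Submodule.finrank_quotient_add_finrank N
    omega
  have hle : N ≤ N.comap f := fun y hy => hfN y hy
  have := eq_self_of_sq_of_finrank_one hq (N.mapQ N f hle) (fun y => by
    obtain ⟨y, rfl⟩ := Submodule.Quotient.mk_surjective N y
    rw [Submodule.mapQ_apply, ← Submodule.Quotient.mk_sub, Submodule.mapQ_apply,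
      ← Submodule.Quotient.mk_sub, Submodule.Quotient.mk_eq_zero]
    exact hf y) (Submodule.Quotient.mk x)
  rw [Submodule.mapQ_apply, ← sub_eq_zero, ← Submodule.Quotient.mk_sub,
    Submodule.Quotient.mk_eq_zero] at this
  exact this

/-- dichotomy for a proper submodule `M`. -/
theorem eq_or_inf_eq_bot (hcard : Nat.card V ≤ p ^ 2) (N M : Submodule (ZMod p) V)
    (h0 : N ≠ ⊥) (h1 : N ≠ ⊤) (hM : M ≠ ⊤) : M = N ∨ N ⊓ M = ⊥ := by
  obtain ⟨hr1, hr2⟩ := finrank_facts hcard N h0 h1
  have : Module.Finite (ZMod p) V := Module.Finite.of_finite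
  by_cases hle : N ≤ M
  · left
    have hlt : finrank (ZMod p) M < finrank (ZMod p) V := Submodule.finrank_lt hM
    have hle' : finrank (ZMod p) N ≤ finrank (ZMod p) M := Submodule.finrank_mono hle
    exact (Submodule.eq_of_le_of_finrank_eq hle (by omega)).symm
  · right
    have hlt : N ⊓ M < N := lt_of_le_of_ne inf_le_left (fun h => hle (h ▸ inf_le_right))
    have := Submodule.finrank_lt_finrank_of_lt hlt
    exact Submodule.finrank_eq_zero.mp (by omega)

theorem card_eq_of_line (hcard : Nat.card V ≤ p ^ 2) (N : Submodule (ZMod p) V)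
    (h0 : N ≠ ⊥) (h1 : N ≠ ⊤) : Nat.card N = p := by
  have hr := (finrank_facts hcard N h0 h1).1
  have := Module.natCard_eq_pow_finrank (K := ZMod p) (V := N)
  rwa [Nat.card_zmod, hr, pow_one] at this

end Fermat.Agent.S13
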