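import Fermat.Agent.S13.FreyTorsion
import Fermat.Agent.S13.LinAlg

/-!
# S13: the two characters attached to a stable line (as subgroups of the Galois group)
-/

set_option autoImplicit false
set_option linter.unusedSectionVars false

namespace Fermat.Agent.S13

open WeierstrassCurve WeierstrassCurve.Affine WeierstrassCurve.Affine.Point Fermat.Agent.S05

local notation "Qbar" => AlgebraicClosure ℚ
local notation "Gal" => (AlgebraicClosure ℚ ≃ₐ[ℚ] AlgebraicClosure ℚ)

attribute [local instance 100000] AlgebraicClosure.instAlgebra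

variable (P : FreyPackage)

/-- the `p`-torsion of the Frey curve. -/
noncomputable abbrev TorsP (P : FreyPackage) : Submodule ℤ (P.freyCurve⁄Qbar).Point :=
  Submodule.torsionBy ℤ (P.freyCurve⁄Qbar).Point P.p

/-- the action of `σ` as a linear map. -/
noncomputable def actLin (σ : Gal) : (TorsP P) →ₗ[ZMod P.p] (TorsP P) :=
  (DistribSMul.toAddMonoidHom (TorsP P) σ).toZModLinearMap P.p

@[simp] lemma actLin_apply (σ : Gal) (x : (TorsP P)) : actLin P σ x = σ • x := rfl

variable {P}

/-- the kernel of the character on the line `N`. -/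
def fixN (N : Submodule (ZMod P.p) (TorsP P)) : Subgroup Gal where
  carrier := {σ | ∀ x ∈ N, σ • x = x}
  one_mem' := fun x _ => one_smul _ x
  mul_mem' := fun {a b} ha hb x hx => by rw [mul_smul, hb x hx, ha x hx]
  inv_mem' := fun {a} ha x hx => by rw [inv_smul_eq_iff, ha x hx]

lemma mem_fixN {N : Submodule (ZMod P.p) (TorsP P)} {σ : Gal} :
    σ ∈ fixN N ↔ ∀ x ∈ N, σ • x = x := Iff.rfl

/-- the kernel of the character on the quotient by the line `N`. -/
def cofixN (N : Submodule (ZMod P.p) (TorsP P)) (hN : IsGaloisStable ℚ N) : Subgroup Gal where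
  carrier := {σ | ∀ x : (TorsP P), σ • x - x ∈ N}
  one_mem' := fun x => by simp
  mul_mem' := fun {a b} ha hb x => by
    have : (a * b) • x - x = a • (b • x - x) + (a • x - x) := by
      rw [mul_smul, smul_sub]; abel
    rw [this]; exact N.add_mem (hN a _ (hb x)) (ha x)
  inv_mem' := fun {a} ha x => by
    have : a⁻¹ • x - x = -(a⁻¹ • (a • x - x)) := by
      rw [smul_sub, inv_smul_smul]; abel
    rw [this]; exact N.neg_mem (hN _ _ (ha x))

lemma mem_cofixN {N : Submodule (ZMod P.p) (TorsP P)} {hN : IsGaloisStable ℚ N} {σ : Gal} :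
    σ ∈ cofixN N hN ↔ ∀ x : (TorsP P), σ • x - x ∈ N := Iff.rfl

lemma fixN_normal (N : Submodule (ZMod P.p) (TorsP P)) (hN : IsGaloisStable ℚ N) : (fixN N).Normal := by
  constructor
  intro n hn g x hx
  rw [mul_smul, mul_smul, hn _ (hN g⁻¹ x hx), smul_inv_smul]

lemma cofixN_normal (N : Submodule (ZMod P.p) (TorsP P)) (hN : IsGaloisStable ℚ N) :
    (cofixN N hN).Normal := by
  constructor
  intro n hn g x
  have : (g * n * g⁻¹) • x - x = g • (n • (g⁻¹ • x) - g⁻¹ • x) := by
    rw [mul_smul, mul_smul, smul_sub, smul_inv_smul]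
  rw [this]
  exact hN g _ (hn _)

/-- the `y`-coordinate (junk value at the origin). -/
def pY {K : Type*} [Field K] {W : Affine K} : W.Point → K
  | .zero => 0
  | .some _ y _ => y

variable (P)

instance finite_torsP : Finite (TorsP P) := by
  have h := (frey_torsion_card P).1
  have : (TorsP P : Set (P.freyCurve⁄Qbar).Point) =
      {Q : (P.freyCurve⁄Qbar).Point | P.p • Q = 0} := by
    ext Q
    simp only [SetLike.mem_coe, Submodule.mem_torsionBy_iff, Set.mem_ofPred_eq, natCast_zsmul]
  rw [← this] at h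
  exact h

lemma card_torsP : Nat.card (TorsP P) ≤ P.p ^ 2 := by
  have h := (frey_torsion_card P).2
  have : (TorsP P : Set (P.freyCurve⁄Qbar).Point) =
      {Q : (P.freyCurve⁄Qbar).Point | P.p • Q = 0} := by
    ext Q
    simp only [SetLike.mem_coe, Submodule.mem_torsionBy_iff, Set.mem_ofPred_eq, natCast_zsmul]
  rw [← this, ← _root_.Nat.card_coe_set_eq] at h
  exact h

lemma nontrivial_torsP : Nontrivial (TorsP P) := by
  obtain ⟨Q, hQ0, hQ⟩ := exists_frey_torsion P
  refine ⟨⟨⟨Q, (Submodule.mem_torsionBy_iff _ _).2 (by rwa [natCast_zsmul])⟩, 0, ?_⟩⟩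
  intro h
  exact hQ0 (congrArg Subtype.val h)

/-- the action on the torsion factors through a finite extension. -/
theorem exists_finite_field : ∃ L : IntermediateField ℚ Qbar, FiniteDimensional ℚ L ∧
    ∀ σ ∈ L.fixingSubgroup, ∀ x : (TorsP P), σ • x = x := by
  set S : Set Qbar := Set.range (fun x : (TorsP P) => pX x.1) ∪ Set.range (fun x : (TorsP P) => pY x.1) with hS
  have hfin : S.Finite := (Set.finite_range _).union (Set.finite_range _)
  have : Finite S := hfin
  have halg : Algebra.IsAlgebraic ℚ Qbar := AlgebraicClosure.isAlgebraic ℚ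
  refine ⟨IntermediateField.adjoin ℚ S,
    IntermediateField.finiteDimensional_adjoin (fun x _ => (halg.isAlgebraic x).isIntegral), ?_⟩
  intro σ hσ x
  rw [IntermediateField.mem_fixingSubgroup_iff] at hσ
  have hX : σ (pX x.1) = pX x.1 :=
    hσ _ (IntermediateField.subset_adjoin ℚ S (Or.inl ⟨x, rfl⟩))
  have hY : σ (pY x.1) = pY x.1 :=
    hσ _ (IntermediateField.subset_adjoin ℚ S (Or.inr ⟨x, rfl⟩))
  apply Subtype.ext
  obtain ⟨Q, hQ⟩ := x
  show σ • Q = Q
  rcases Q with _ | ⟨a, b, h⟩
  · rfl
  · show Point.some (σ a) (σ b) _ = Point.some a b h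
    simp only [pX, pY] at hX hY
    simp only [hX, hY]

end Fermat.Agent.S13
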