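import Mathlib
import Fermat.Agent.S05.XOnly
import Fermat.Agent.S13.CompCopy

/-!
# Component distance at a node, without assuming that `2` is a unit
-/

set_option autoImplicit false
set_option linter.unusedSectionVars false

namespace Fermat.Agent.S13

open WeierstrassCurve Fermat.Agent.S05

section Forms

variable {K : Type*} [Field K] {Γ₀ : Type*} [LinearOrderedCommGroupWithZero Γ₀]
variable {v : Valuation K Γ₀} {δ : Additive Γ₀ˣ}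

/-- Newton data of the three biquadratic forms at a node (`2` only integral). -/
lemma NData_of_forms_two {XP ZP XQ ZQ α β : K} {c d : Additive Γ₀ˣ} (h2 : Ge v (2 : K) 0)
    (hα : Eq' v α 0) (hβ : Eq' v β δ) (hP : Nrm v δ XP ZP c) (hQ : Nrm v δ XQ ZQ d)
    (hcd : c ≤ d) :
    NData v δ ((XP * ZQ + ZP * XQ) ^ 2 - 4 * (XP * XQ) * (ZP * ZQ))
      (2 * ((XP * ZQ + ZP * XQ) * (XP * XQ + β * (ZP * ZQ))) + α * (XP * XQ) * (ZP * ZQ))
      ((XP * XQ - β * (ZP * ZQ)) ^ 2) (c + c) (d - c)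
      (min (c + d) δ + min (c + d) δ - (c + d)) := by
  have c0 := hP.c0
  have cδ := hP.cδ
  have d0 := hQ.c0
  have dδ := hQ.cδ
  have gA : Ge v (XP * ZQ) c := (hP.geX.mul hQ.geZ).cast13 (by abel)
  have gB : Ge v (ZP * XQ) d := (hP.geZ.mul hQ.geX).cast13 (by abel)
  have gs : Ge v (XP * XQ) (c + d) := hP.geX.mul hQ.geX
  have gu : Ge v (ZP * ZQ) 0 := (hP.geZ.mul hQ.geZ).cast13 (by abel)
  have gbu : Ge v (β * (ZP * ZQ)) δ := (hβ.ge.mul gu).cast13 (by abel)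
  have hU : (XP * ZQ + ZP * XQ) ^ 2 - 4 * (XP * XQ) * (ZP * ZQ) = (XP * ZQ - ZP * XQ) ^ 2 := by
    ring
  have gt : Ge v (XP * ZQ + ZP * XQ) c := gA.add (gB.mono hcd)
  have gsb : Ge v (XP * XQ + β * (ZP * ZQ)) (min (c + d) δ) :=
    (gs.mono (min_le_left _ _)).add (gbu.mono (min_le_right _ _))
  have gsb' : Ge v (XP * XQ - β * (ZP * ZQ)) (min (c + d) δ) :=
    (gs.mono (min_le_left _ _)).sub (gbu.mono (min_le_right _ _))
  have g1 : Ge v (2 * ((XP * ZQ + ZP * XQ) * (XP * XQ + β * (ZP * ZQ)))) (c + min (c + d) δ) :=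
    (h2.mul (gt.mul gsb)).cast13 (by abel)
  have g2 : Ge v (α * (XP * XQ) * (ZP * ZQ)) (c + d) :=
    ((hα.ge.mul gs).mul gu).cast13 (by abel)
  refine ⟨by grind, by grind, by grind, ?_, ?_, ?_, ?_, ?_, ?_⟩
  · rw [hU]; exact (gA.sub (gB.mono hcd)).sq
  · exact ((g1.mono (by grind)).add g2).cast13 (by abel)
  · exact gsb'.sq.cast13 (by abel)
  · intro h
    have hc : c < d := by grind
    have eA : Eq' v (XP * ZQ) c :=
      ((hP.eqX (hc.trans_le dδ)).mul (hQ.eqZ (c0.trans_lt hc))).cast13 (by abel)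
    rw [hU]; exact (eA.sub_ge gB hc).sq
  · intro h
    have hc : 0 < c := by grind
    have hd : d < δ := by grind
    have e2 : Eq' v (α * (XP * XQ) * (ZP * ZQ)) (c + d) :=
      ((hα.mul ((hP.eqX (hcd.trans_lt hd)).mul (hQ.eqX hd))).mul
        ((hP.eqZ hc).mul (hQ.eqZ (hc.trans_le hcd)))).cast13 (by abel)
    exact (e2.ge_add g1 (by grind)).cast13 (by abel)
  · intro h
    rcases lt_trichotomy (c + d) δ with h1 | h1 | h1
    · have es : Eq' v (XP * XQ) (c + d) := (hP.eqX (by grind)).mul (hQ.eqX (by grind))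
      exact (es.sub_ge gbu h1).sq.cast13 (by grind)
    · grind
    · have eu : Eq' v (β * (ZP * ZQ)) δ :=
        (hβ.mul ((hP.eqZ (by grind)).mul (hQ.eqZ (by grind)))).cast13 (by abel)
      exact (eu.ge_sub gs h1).sq.cast13 (by grind)

/-- core of the Newton polygon argument (ordered version). -/
lemma clip_pair_aux_two {XP ZP XQ ZQ X₁ Z₁ X₂ Z₂ α β k : K} {a b c d : Additive Γ₀ˣ} (hδ : 0 < δ)
    (h2 : Ge v (2 : K) 0) (hα : Eq' v α 0) (hβ : Eq' v β δ) (hk : k ≠ 0)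
    (hS : X₁ * X₂ = k * (XP * XQ - β * (ZP * ZQ)) ^ 2)
    (hT : X₁ * Z₂ + Z₁ * X₂ = k * (2 * ((XP * ZQ + ZP * XQ) * (XP * XQ + β * (ZP * ZQ)))
      + α * (XP * XQ) * (ZP * ZQ)))
    (hU : Z₁ * Z₂ = k * ((XP * ZQ + ZP * XQ) ^ 2 - 4 * (XP * XQ) * (ZP * ZQ)))
    (cP : Clip v δ XP ZP c) (cQ : Clip v δ XQ ZQ d) (c1 : Clip v δ X₁ Z₁ a)
    (c2 : Clip v δ X₂ Z₂ b) (hcd : c ≤ d) (hab : a ≤ b) :
    a = d - c ∧ b = min (c + d) δ + min (c + d) δ - (c + d) := by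
  obtain ⟨lP, hlP, nP⟩ := cP
  obtain ⟨lQ, hlQ, nQ⟩ := cQ
  obtain ⟨l1, hl1, n1⟩ := c1
  obtain ⟨l2, hl2, n2⟩ := c2
  have dr := NData.of_roots n1 n2 hab
  have df := NData_of_forms_two h2 hα hβ nP nQ hcd
  have hA : l1 * l2 * k / (lP ^ 2 * lQ ^ 2) ≠ 0 := by positivity
  obtain ⟨r, hr⟩ := exists_eq' (v := v) hA
  have eU : l1 * Z₁ * (l2 * Z₂) = (l1 * l2 * k / (lP ^ 2 * lQ ^ 2)) *
      ((lP * XP * (lQ * ZQ) + lP * ZP * (lQ * XQ)) ^ 2
        - 4 * (lP * XP * (lQ * XQ)) * (lP * ZP * (lQ * ZQ))) := by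
    rw [show l1 * Z₁ * (l2 * Z₂) = l1 * l2 * (Z₁ * Z₂) by ring, hU]
    field_simp
  have eT : l1 * X₁ * (l2 * Z₂) + l1 * Z₁ * (l2 * X₂) = (l1 * l2 * k / (lP ^ 2 * lQ ^ 2)) *
      (2 * ((lP * XP * (lQ * ZQ) + lP * ZP * (lQ * XQ)) * (lP * XP * (lQ * XQ)
        + β * (lP * ZP * (lQ * ZQ)))) + α * (lP * XP * (lQ * XQ)) * (lP * ZP * (lQ * ZQ))) := by
    rw [show l1 * X₁ * (l2 * Z₂) + l1 * Z₁ * (l2 * X₂) = l1 * l2 * (X₁ * Z₂ + Z₁ * X₂) by ring, hT]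
    field_simp
  have eS : l1 * X₁ * (l2 * X₂) = (l1 * l2 * k / (lP ^ 2 * lQ ^ 2)) *
      (lP * XP * (lQ * XQ) - β * (lP * ZP * (lQ * ZQ))) ^ 2 := by
    rw [show l1 * X₁ * (l2 * X₂) = l1 * l2 * (X₁ * X₂) by ring, hS]
    field_simp
  rw [eU, eT, eS] at dr
  exact (dr.scale hr).unique hδ df

/-- The Newton polygon argument: the clipped valuations of `P ± Q` are `|c - d|` and the fold of
`c + d`. -/
lemma clip_pair_two {XP ZP XQ ZQ X₁ Z₁ X₂ Z₂ α β k : K} {a b c d : Additive Γ₀ˣ} (hδ : 0 < δ)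
    (h2 : Ge v (2 : K) 0) (hα : Eq' v α 0) (hβ : Eq' v β δ) (hk : k ≠ 0)
    (hS : X₁ * X₂ = k * (XP * XQ - β * (ZP * ZQ)) ^ 2)
    (hT : X₁ * Z₂ + Z₁ * X₂ = k * (2 * ((XP * ZQ + ZP * XQ) * (XP * XQ + β * (ZP * ZQ)))
      + α * (XP * XQ) * (ZP * ZQ)))
    (hU : Z₁ * Z₂ = k * ((XP * ZQ + ZP * XQ) ^ 2 - 4 * (XP * XQ) * (ZP * ZQ)))
    (cP : Clip v δ XP ZP c) (cQ : Clip v δ XQ ZQ d) (c1 : Clip v δ X₁ Z₁ a)
    (c2 : Clip v δ X₂ Z₂ b) :
    (a = max c d - min c d ∧ b = min (c + d) δ + min (c + d) δ - (c + d)) ∨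
    (b = max c d - min c d ∧ a = min (c + d) δ + min (c + d) δ - (c + d)) := by
  have key : ∀ {XP ZP XQ ZQ : K} {c d : Additive Γ₀ˣ},
      X₁ * X₂ = k * (XP * XQ - β * (ZP * ZQ)) ^ 2 →
      X₁ * Z₂ + Z₁ * X₂ = k * (2 * ((XP * ZQ + ZP * XQ) * (XP * XQ + β * (ZP * ZQ)))
        + α * (XP * XQ) * (ZP * ZQ)) →
      Z₁ * Z₂ = k * ((XP * ZQ + ZP * XQ) ^ 2 - 4 * (XP * XQ) * (ZP * ZQ)) →
      Clip v δ XP ZP c → Clip v δ XQ ZQ d → c ≤ d →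
      (a = d - c ∧ b = min (c + d) δ + min (c + d) δ - (c + d)) ∨
      (b = d - c ∧ a = min (c + d) δ + min (c + d) δ - (c + d)) := by
    intro XP ZP XQ ZQ c d hS hT hU cP cQ hcd
    rcases le_total a b with hab | hab
    · exact Or.inl (clip_pair_aux_two hδ h2 hα hβ hk hS hT hU cP cQ c1 c2 hcd hab)
    · refine Or.inr (clip_pair_aux_two hδ h2 hα hβ hk ?_ ?_ ?_ cP cQ c2 c1 hcd hab)
      · rw [mul_comm, hS]
      · rw [← hT]; ring
      · rw [mul_comm, hU]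
  rcases le_total c d with hcd | hcd
  · rw [max_eq_right hcd, min_eq_left hcd]
    exact key hS hT hU cP cQ hcd
  · rw [max_eq_left hcd, min_eq_right hcd, add_comm c d]
    refine key ?_ ?_ ?_ cQ cP hcd
    · rw [hS]; ring
    · rw [hT]; ring
    · rw [hU]; ring

end Forms

variable {K : Type*} [Field K] [DecidableEq K] {W : Affine K}

lemma pX_or_pZ_ne_zero (P : W.Point) : pX P ≠ 0 ∨ pZ P ≠ 0 := by
  cases P with
  | zero => left; simp [pX]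
  | some x y h => right; simp

theorem addSub_two {β : K} (hb4 : W.b₄ = 2 * β) (hb6 : W.b₆ = 0) (hb8 : W.b₈ = -β ^ 2)
    (P Q : W.Point) : ∃ k : K, k ≠ 0 ∧
    pX (P + Q) * pX (P - Q) = k * (pX P * pX Q - β * (pZ P * pZ Q)) ^ 2 ∧
    pX (P + Q) * pZ (P - Q) + pZ (P + Q) * pX (P - Q) =
      k * (2 * ((pX P * pZ Q + pZ P * pX Q) * (pX P * pX Q + β * (pZ P * pZ Q)))
        + W.b₂ * (pX P * pX Q) * (pZ P * pZ Q)) ∧
    pZ (P + Q) * pZ (P - Q) =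
      k * ((pX P * pZ Q + pZ P * pX Q) ^ 2 - 4 * (pX P * pX Q) * (pZ P * pZ Q)) := by
  obtain ⟨k, hk, h1, h2, h3⟩ := addSub P Q
  simp only [asS, asT, asU, hb4, hb6, hb8] at h1 h2 h3
  refine ⟨k, hk, ?_, ?_, ?_⟩
  · linear_combination h1
  · linear_combination h2
  · linear_combination h3

variable {Γ₀ : Type*} [LinearOrderedCommGroupWithZero Γ₀] {v : Valuation K Γ₀}
  {δ : Additive Γ₀ˣ}

theorem rel_clip_two {β : K} (hb4 : W.b₄ = 2 * β) (hb6 : W.b₆ = 0) (hb8 : W.b₈ = -β ^ 2)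
    (hδ : 0 < δ) (h2 : Ge v (2 : K) 0)
    (hb2 : Eq' v W.b₂ 0) (hβ : Eq' v β δ) (S : W.Point) {d : Additive Γ₀ˣ}
    (hd : Clip v δ (pX S) (pZ S) d) (k : ℕ) :
    (∀ κ, Clip v δ (pX (k • S)) (pZ (k • S)) κ → Rel δ d (k : ℤ) κ) ∧
    (∀ κ, Clip v δ (pX ((k + 1) • S)) (pZ ((k + 1) • S)) κ → Rel δ d ((k : ℤ) + 1) κ) := by
  induction k with
  | zero =>
    constructor
    · intro κ hκ
      rw [zero_smul, pX_zero, pZ_zero] at hκ
      rw [hκ.unique (clip_one_zero hδ.le)]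
      exact Or.inl ⟨0, by simp⟩
    · intro κ hκ
      rw [zero_add, one_smul] at hκ
      rw [hκ.unique hd]
      exact Or.inl ⟨0, by simp⟩
  | succ k ih =>
    refine ⟨by simpa using ih.2, ?_⟩
    intro κ hκ
    obtain ⟨c, hc⟩ := exists_clip (v := v) hδ.le (pX_or_pZ_ne_zero ((k + 1) • S))
    obtain ⟨b, hb⟩ := exists_clip (v := v) hδ.le (pX_or_pZ_ne_zero (k • S))
    obtain ⟨l, hl, hS, hT, hU⟩ := addSub_two hb4 hb6 hb8 ((k + 1) • S) S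
    have e1 : (k + 1) • S + S = (k + 1 + 1) • S := by rw [add_smul (k + 1) 1 S, one_smul]
    have e2 : (k + 1) • S - S = k • S := by rw [add_smul k 1 S, one_smul, add_sub_cancel_right]
    rw [e1, e2] at hS hT hU
    have := clip_pair_two hδ h2 hb2 hβ hl hS hT hU hc hd hκ hb
    have r := Rel.step (k := (k : ℤ) + 1) hδ hc.c0 hc.cδ hd.c0 hd.cδ hb.c0 hb.cδ (ih.2 c hc)
      (by simpa using ih.1 b hb) this
    simpa using r

/-- **Component distance**, valid also in residue characteristic `2`. -/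
theorem comp_dist_two {K : Type*} [Field K] [DecidableEq K] {W : Affine K} {Γ₀ : Type*}
    [LinearOrderedCommGroupWithZero Γ₀] {v : Valuation K Γ₀} {δ : Additive Γ₀ˣ} {β : K}
    (hb4 : W.b₄ = 2 * β) (hb6 : W.b₆ = 0) (hb8 : W.b₈ = -β ^ 2) (hδ : 0 < δ)
    (h2 : Ge v (2 : K) 0) (hb2 : Eq' v W.b₂ 0) (hβ : Eq' v β δ) (S : W.Point)
    {d : Additive Γ₀ˣ} (hd : Clip v δ (pX S) (pZ S) d) (n : ℕ) (hn : n • S = 0) :
    ∃ N : ℤ, n • d = N • (δ + δ) := by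
  have := (rel_clip_two hb4 hb6 hb8 hδ h2 hb2 hβ S hd n).1 0 (by
    rw [hn, pX_zero, pZ_zero]; exact clip_one_zero hδ.le)
  rcases this with ⟨N, hN⟩ | ⟨N, hN⟩
  · refine ⟨N, ?_⟩
    rw [natCast_zsmul] at hN
    exact (sub_eq_zero.mp hN.symm)
  · refine ⟨N, ?_⟩
    rw [natCast_zsmul, neg_zero] at hN
    exact (sub_eq_zero.mp hN.symm)

end Fermat.Agent.S13
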