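import Fermat.Agent.S13.FreyLocal
import Fermat.Agent.S13.NodeTwo
import Fermat.Agent.S54.Frob

/-!
# S13, piece R: the Frey curve has no rational point of order `p`
-/

set_option autoImplicit false
set_option linter.unusedSectionVars false

namespace Fermat.Agent.S13

open WeierstrassCurve WeierstrassCurve.Affine Fermat.Agent.S05

local notation "Qbar" => AlgebraicClosure ℚ

attribute [local instance 100000] AlgebraicClosure.instAlgebra

namespace RatTors

section val

variable (A : ValuationSubring Qbar) (hA : A.LiesOverPrime 2)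

include hA in
lemma val_two_lt : A.valuation (2 : Qbar) < 1 := by
  have : A.valuation ((2 : ℕ) : Qbar) < 1 := hA
  simpa using this

include hA in
lemma val_even {n : ℤ} (hn : (2 : ℤ) ∣ n) : A.valuation (n : Qbar) < 1 := by
  obtain ⟨m, rfl⟩ := hn
  push_cast
  rw [map_mul]
  exact lt_of_le_of_lt (mul_le_of_le_one_right' (val_int_le_one A m)) (val_two_lt A hA)

include hA in
lemma val_odd {n : ℤ} (hn : ¬ (2 : ℤ) ∣ n) : A.valuation (n : Qbar) = 1 :=
  v_int_eq_one (val_int_le_one A) Nat.prime_two hA (by exact_mod_cast hn)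

include hA in
/-- a rational `2`-adic unit is congruent to `1`. -/
lemma val_rat_sub_one {r : ℚ} (h : A.valuation (r : Qbar) = 1) :
    A.valuation ((r : Qbar) - 1) < 1 := by
  have hd0 : (r.den : Qbar) ≠ 0 := by exact_mod_cast r.den_ne_zero
  have e : (r : Qbar) = (r.num : Qbar) / (r.den : Qbar) := by
    rw [Rat.cast_def]
  have hcop := r.reduced
  by_cases hden : (2 : ℤ) ∣ (r.den : ℤ)
  · exfalso
    have hnum : ¬ (2 : ℤ) ∣ r.num := by
      intro hnum
      have h1 : 2 ∣ r.num.natAbs := by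
        exact Int.natCast_dvd.mp (by exact_mod_cast hnum)
      have h2 : 2 ∣ r.den := by exact_mod_cast hden
      have := Nat.dvd_gcd h1 h2
      rw [hcop] at this
      norm_num at this
    have h1 := val_odd A hA hnum
    have h2 := val_even A hA hden
    rw [e, map_div₀, h1] at h
    have h3 : A.valuation (((r.den : ℕ) : ℤ) : Qbar) = 1 := by
      push_cast
      rw [one_div, inv_eq_one] at h
      exact h
    rw [h3] at h2
    exact lt_irrefl _ h2
  · have h2 := val_odd A hA hden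
    push_cast at h2
    have hnum : ¬ (2 : ℤ) ∣ r.num := by
      intro hnum
      have h1 := val_even A hA hnum
      rw [e, map_div₀, h2, div_one] at h
      rw [h] at h1
      exact lt_irrefl _ h1
    have h3 : (2 : ℤ) ∣ r.num - (r.den : ℤ) := by omega
    have h4 := val_even A hA h3
    have e2 : (r : Qbar) - 1 = ((r.num - (r.den : ℤ) : ℤ) : Qbar) / (r.den : Qbar) := by
      rw [e]; push_cast; field_simp
    rw [e2, map_div₀, h2, div_one]
    exact h4

include hA in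
lemma val_rat_sub {r s : ℚ} (hr : A.valuation (r : Qbar) = 1) (hs : A.valuation (s : Qbar) = 1) :
    A.valuation ((r : Qbar) - (s : Qbar)) < 1 := by
  have e : (r : Qbar) - (s : Qbar) = ((r : Qbar) - 1) - ((s : Qbar) - 1) := by ring
  rw [e]
  exact lt_of_le_of_lt (Valuation.map_sub _ _ _)
    (max_lt (val_rat_sub_one A hA hr) (val_rat_sub_one A hA hs))

end val

section arith

/-- the arithmetic contradiction behind the component argument. -/
lemma arith_aux {p : ℕ} (pp : p.Prime) (hp5 : 5 ≤ p) {m k n N : ℤ} (hn : n = p * m - 4)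
    (hk0 : 0 < k) (hkn : k < n) (h : (p : ℤ) * k = 2 * N * n) : False := by
  have hpi : Prime (p : ℤ) := Nat.prime_iff_prime_int.mp pp
  have h1 : (p : ℤ) ∣ 2 * N * n := ⟨k, h.symm⟩
  have hp2 : ¬ (p : ℤ) ∣ 2 := by
    intro h2
    have := Int.le_of_dvd (by norm_num) h2
    omega
  have hp4 : ¬ (p : ℤ) ∣ 4 := by
    intro h2
    have := Int.le_of_dvd (by norm_num) h2
    omega
  have hpn : ¬ (p : ℤ) ∣ n := by
    intro h2
    apply hp4
    have : (4 : ℤ) = p * m - n := by rw [hn]; ring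
    rw [this]
    exact dvd_sub (Dvd.intro _ rfl) h2
  rcases hpi.dvd_or_dvd h1 with h2 | h2
  · rcases hpi.dvd_or_dvd h2 with h3 | h3
    · exact hp2 h3
    · obtain ⟨N', rfl⟩ := h3
      have hp0 : (p : ℤ) ≠ 0 := by exact_mod_cast pp.ne_zero
      have h4 : k = 2 * N' * n := by
        apply mul_left_cancel₀ hp0
        rw [h]; ring
      have hn0 : 0 < n := hk0.trans hkn
      have hN' : 0 < N' := by
        by_contra hcon
        have : N' ≤ 0 := not_lt.mp hcon
        have : 2 * N' * n ≤ 0 := by nlinarith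
        omega
      nlinarith
  · exact hpn h2

end arith

section scale

variable (A : ValuationSubring Qbar) (hA : A.LiesOverPrime 2)

include hA in
lemma exists_omega : ∃ ω : Additive (A.ValueGroup)ˣ, 0 < ω ∧ Eq' A.valuation (2 : Qbar) ω := by
  obtain ⟨ω, hω⟩ := exists_eq' (v := A.valuation) (x := (2 : Qbar)) (by norm_num)
  refine ⟨ω, ?_, hω⟩
  have h := val_two_lt A hA
  rw [hω, ← ex_zero, ex_lt_ex] at h
  exact h

variable {A} {ω : Additive (A.ValueGroup)ˣ} (hω : Eq' A.valuation (2 : Qbar) ω)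

include hA hω in
lemma rat_eq' {r : ℚ} (hr : r ≠ 0) : ∃ j : ℤ, Eq' A.valuation (r : Qbar) (j • ω) := by
  obtain ⟨j, hj⟩ := v_rat_eq_zpow (K := Qbar) (val_int_le_one A) Nat.prime_two hA hr
  refine ⟨j, ?_⟩
  rw [Eq', hj, ex_zsmul, ← hω]
  norm_num

include hA hω in
lemma frey_beta_eq' (P : FreyPackage) :
    ∃ m : ℤ, Eq' A.valuation (P.freyCurve⁄Qbar).a₄ (((P.p : ℤ) * m - 4) • ω) := by
  have hb0 : (P.b : ℚ) ≠ 0 := by exact_mod_cast P.hb0
  obtain ⟨m, hm⟩ := rat_eq' hA hω hb0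
  refine ⟨m, ?_⟩
  have hm' : Eq' A.valuation (P.b : Qbar) (m • ω) := by simpa using hm
  have ha : Eq' A.valuation (P.a : Qbar) 0 := by
    rw [Eq', ex_zero]; exact val_odd A hA (frey_a_odd P)
  have h16 : Eq' A.valuation (16 : Qbar) (4 • ω) := by
    have := hω.pow 4
    norm_num at this
    exact this
  rw [frey_a₄]
  have := (((ha.pow P.p).neg).mul (hm'.pow P.p)).div h16
  refine this.congr ?_
  rw [sub_smul, mul_smul, smul_zero, zero_add, natCast_zsmul]
  rfl

end scale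

section points

variable (P : FreyPackage)

lemma frey_b₄ : (P.freyCurve⁄Qbar).b₄ = 2 * (P.freyCurve⁄Qbar).a₄ := by
  rw [WeierstrassCurve.b₄, frey_a₃]; ring

lemma frey_b₆ : (P.freyCurve⁄Qbar).b₆ = 0 := by
  rw [WeierstrassCurve.b₆, frey_a₃, frey_a₆]; ring

lemma frey_b₈ : (P.freyCurve⁄Qbar).b₈ = -(P.freyCurve⁄Qbar).a₄ ^ 2 := by
  rw [WeierstrassCurve.b₈, frey_a₃, frey_a₆]; ring

lemma exists_rat_of_fixed (z : Qbar) (h : ∀ σ : Qbar ≃ₐ[ℚ] Qbar, σ z = z) :
    ∃ q : ℚ, (q : Qbar) = z := by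
  have h1 : Algebra.IsAlgebraic ℚ Qbar := AlgebraicClosure.isAlgebraic ℚ
  have h2 : IsAlgClosure ℚ Qbar := ⟨inferInstance, h1⟩
  have h3 : IsGalois ℚ Qbar := {}
  obtain ⟨q, hq⟩ := (InfiniteGalois.mem_range_algebraMap_iff_fixed z).2 h
  exact ⟨q, by rw [← hq, eq_ratCast]⟩

/-- a nonzero Galois-fixed point has rational `x`-coordinate. -/
lemma exists_rat_x {R : (P.freyCurve⁄Qbar).Point} (hR0 : R ≠ 0)
    (hfix : ∀ σ : Qbar ≃ₐ[ℚ] Qbar, σ • R = R) :
    ∃ (r : ℚ) (y : Qbar) (h : (P.freyCurve⁄Qbar).Nonsingular (r : Qbar) y),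
      R = Point.some (r : Qbar) y h := by
  rcases R with _ | ⟨x, y, h⟩
  · exact absurd rfl hR0
  · have hx : ∀ σ : Qbar ≃ₐ[ℚ] Qbar, σ x = x := by
      intro σ
      have h1 := hfix σ
      have h2 : ∃ h' : (P.freyCurve⁄Qbar).Nonsingular (σ x) (σ y),
          σ • (Point.some x y h) = Point.some (σ x) (σ y) h' := ⟨_, rfl⟩
      obtain ⟨h', h3⟩ := h2
      rw [h3] at h1
      injection h1
    obtain ⟨r, rfl⟩ := exists_rat_of_fixed x hx
    exact ⟨r, y, h, rfl⟩

lemma fixed_nsmul {Q : (P.freyCurve⁄Qbar).Point}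
    (hfix : ∀ σ : Qbar ≃ₐ[ℚ] Qbar, σ • Q = Q) (k : ℕ) (σ : Qbar ≃ₐ[ℚ] Qbar) :
    σ • (k • Q) = k • Q := by
  rw [← smul_comm k σ Q, hfix]

variable (A : ValuationSubring Qbar) (hA : A.LiesOverPrime 2)

include hA in
lemma frey_b₂_eq' : Eq' A.valuation (P.freyCurve⁄Qbar).b₂ 0 := by
  rw [frey_b₂, Eq', ex_zero]
  apply val_odd A hA
  intro h
  have h2 : (2 : ℤ) ∣ P.b := (ZMod.intCast_zmod_eq_zero_iff_dvd P.b 2).1 P.hb2
  have h3 : (2 : ℤ) ∣ P.b ^ P.p := dvd_pow h2 P.hp0
  have h4 : (2 : ℤ) ∣ P.a ^ P.p := by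
    have := dvd_sub h3 h
    simpa using this
  exact frey_a_odd P (Int.prime_two.dvd_of_dvd_pow h4)

include hA in
lemma frey_a₄_val_lt : A.valuation (P.freyCurve⁄Qbar).a₄ < 1 := by
  obtain ⟨k, hk⟩ := frey_a₄_int P
  rw [hk]
  exact val_even A hA (Dvd.intro _ rfl)

include hA in
/-- a `p`-torsion point with rational `x`-coordinate does not reduce to the node. -/
lemma not_node {r : ℚ} {y : Qbar} (h : (P.freyCurve⁄Qbar).Nonsingular (r : Qbar) y)
    (hR : P.p • (Point.some (r : Qbar) y h) = 0) (hr : A.valuation (r : Qbar) < 1) : False := by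
  obtain ⟨ω, hω0, hω⟩ := exists_omega A hA
  obtain ⟨m, hβ⟩ := frey_beta_eq' hA hω P
  set n : ℤ := (P.p : ℤ) * m - 4 with hn
  have hn0 : 0 < n := by
    have h1 := frey_a₄_val_lt P A hA
    rw [hβ, ← ex_zero, ex_lt_ex] at h1
    have h2 : (0 : ℤ) • ω < n • ω := by simpa using h1
    exact (zsmul_lt_zsmul_iff_left hω0).1 h2
  have hδ : 0 < n • ω := zsmul_pos hω0 hn0
  have h2 : Ge A.valuation (2 : Qbar) 0 := hω.ge.mono hω0.le
  have key : ∀ d, Clip A.valuation (n • ω) (r : Qbar) 1 d → ∃ N : ℤ, P.p • d = N • (n • ω + n • ω) :=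
    fun d hd => comp_dist_two (frey_b₄ P) (frey_b₆ P) (frey_b₈ P) hδ h2 (frey_b₂_eq' P A hA) hβ
      (Point.some (r : Qbar) y h) (by simpa using hd) P.p hR
  have big : Ge A.valuation (r : Qbar) (n • ω) → False := by
    intro hge
    obtain ⟨N, hN⟩ := key (n • ω) ⟨1, one_ne_zero, hδ.le, le_refl _, by simpa using hge,
      by simpa using eq'_one.ge, fun h => absurd h (lt_irrefl _), fun _ => by simpa using eq'_one⟩
    have e : ((P.p : ℤ) * n) • ω = (N * (n + n)) • ω := by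
      rw [mul_smul, mul_smul, add_smul, natCast_zsmul, hN]
    have e2 := (zsmul_left_inj hω0).1 e
    have e3 : (P.p : ℤ) = 2 * N := by
      apply mul_right_cancel₀ hn0.ne'
      rw [e2]; ring
    obtain ⟨t, ht⟩ := P.hp_odd
    omega
  by_cases hr0 : r = 0
  · apply big
    rw [hr0]
    simpa using ge_zero' (v := A.valuation) (n • ω)
  · obtain ⟨k, hk⟩ := rat_eq' hA hω hr0
    have hk0 : 0 < k := by
      rw [hk, ← ex_zero, ex_lt_ex] at hr
      have h2 : (0 : ℤ) • ω < k • ω := by simpa using hr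
      exact (zsmul_lt_zsmul_iff_left hω0).1 h2
    rcases le_or_gt n k with hnk | hkn
    · exact big (hk.ge.mono ((zsmul_le_zsmul_iff_left hω0).2 hnk))
    · obtain ⟨N, hN⟩ := key (k • ω) ⟨1, one_ne_zero, (zsmul_pos hω0 hk0).le,
        ((zsmul_lt_zsmul_iff_left hω0).2 hkn).le, by simpa using hk.ge,
        by simpa using eq'_one.ge, fun _ => by simpa using hk, fun _ => by simpa using eq'_one⟩
      have e : ((P.p : ℤ) * k) • ω = (N * (n + n)) • ω := by
        rw [mul_smul, mul_smul, add_smul, natCast_zsmul, hN]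
      have e2 := (zsmul_left_inj hω0).1 e
      exact arith_aux P.pp P.hp5 hn hk0 hkn (by rw [e2]; ring)

include hA in
/-- nonzero rational `p`-torsion points have `2`-adic unit `x`-coordinate. -/
lemma exists_unit_x {R : (P.freyCurve⁄Qbar).Point} (hR0 : R ≠ 0) (hR : P.p • R = 0)
    (hfix : ∀ σ : Qbar ≃ₐ[ℚ] Qbar, σ • R = R) :
    ∃ r : ℚ, pX R = (r : Qbar) ∧ pZ R = 1 ∧ A.valuation (r : Qbar) = 1 := by
  obtain ⟨r, y, h, rfl⟩ := exists_rat_x P hR0 hfix
  refine ⟨r, rfl, rfl, ?_⟩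
  rcases lt_trichotomy (A.valuation (r : Qbar)) 1 with h1 | h1 | h1
  · exact (not_node P A hA h hR h1).elim
  · exact h1
  · exfalso
    apply hR0
    have h25 : 2 ≠ P.p := by have := P.hp5; omega
    refine frey_kerRed_torsion P Nat.prime_two A hA h25 (Or.inr ?_) hR
    rw [pX_some, ← A.valuation_le_one_iff]
    exact not_le.mpr h1

end points

end RatTors

open RatTors in
theorem no_rational_torsion (P : FreyPackage)
    (Q : (P.freyCurve⁄(AlgebraicClosure ℚ)).Point) (hQ0 : Q ≠ 0) (hQ : P.p • Q = 0)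
    (hfix : ∀ σ : AlgebraicClosure ℚ ≃ₐ[ℚ] AlgebraicClosure ℚ, σ • Q = Q) : False := by
  obtain ⟨A, hA⟩ := Fermat.Agent.S54.exists_liesOverPrime Nat.prime_two
  have hp5 := P.hp5
  -- small multiples are nonzero
  have hne : ∀ k : ℕ, 0 < k → k < P.p → k • Q ≠ 0 := by
    intro k hk0 hkp hk
    have hcop : Nat.Coprime k P.p :=
      (Nat.coprime_comm.mp ((Nat.Prime.coprime_iff_not_dvd P.pp).mpr
        (fun hd => absurd (Nat.le_of_dvd hk0 hd) (not_le.mpr hkp))))
    have h1 : addOrderOf Q ∣ k := addOrderOf_dvd_of_nsmul_eq_zero hk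
    have h2 : addOrderOf Q ∣ P.p := addOrderOf_dvd_of_nsmul_eq_zero hQ
    have h3 : addOrderOf Q ∣ 1 := by
      have := Nat.dvd_gcd h1 h2
      rwa [hcop] at this
    exact hQ0 (AddMonoid.addOrderOf_eq_one_iff.mp (Nat.dvd_one.mp h3))
  have htor : ∀ k : ℕ, P.p • (k • Q) = 0 := by
    intro k
    rw [smul_comm, hQ, nsmul_zero]
  obtain ⟨r1, hx1, hz1, hv1⟩ := exists_unit_x P A hA hQ0 hQ hfix
  obtain ⟨r2, hx2, hz2, hv2⟩ := exists_unit_x P A hA (hne 2 (by norm_num) (by omega)) (htor 2)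
    (fixed_nsmul P hfix 2)
  obtain ⟨r3, hx3, hz3, hv3⟩ := exists_unit_x P A hA (hne 3 (by norm_num) (by omega)) (htor 3)
    (fixed_nsmul P hfix 3)
  obtain ⟨k, hk, hS, -, hU⟩ := addSub_two (frey_b₄ P) (frey_b₆ P) (frey_b₈ P) (2 • Q) Q
  have e1 : 2 • Q + Q = 3 • Q := by rw [show (3 : ℕ) = 2 + 1 from rfl, add_smul, one_smul]
  have e2 : 2 • Q - Q = Q := by rw [two_smul, add_sub_cancel_right]
  rw [e1, e2, hx1, hx2, hx3, hz1, hz2] at hS
  rw [e1, e2, hx1, hx2, hz1, hz2, hz3] at hU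
  have hβ := frey_a₄_val_lt P A hA
  have hS' := congrArg A.valuation hS
  have hU' := congrArg A.valuation hU
  have h12 : A.valuation ((r2 : AlgebraicClosure ℚ) * r1 - (P.freyCurve⁄(AlgebraicClosure ℚ)).a₄ * (1 * 1)) = 1 := by
    have h3 : A.valuation ((r2 : AlgebraicClosure ℚ) * r1) = 1 := by rw [map_mul, hv1, hv2, one_mul]
    rw [mul_one, mul_one, ← h3]
    apply Valuation.map_sub_eq_of_lt_left
    rw [h3]; exact hβ
  rw [map_mul, map_mul, map_pow, h12, hv1, hv3] at hS'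
  have hk1 : A.valuation k = 1 := by simpa using hS'.symm
  have e3 : ((r2 : AlgebraicClosure ℚ) * 1 + 1 * r1) ^ 2 - 4 * ((r2 : AlgebraicClosure ℚ) * r1) * (1 * 1)
      = ((r2 : AlgebraicClosure ℚ) - r1) ^ 2 := by ring
  rw [e3, map_mul, map_mul, map_pow, hk1, map_one] at hU'
  have hlt := val_rat_sub A hA hv2 hv1
  have : A.valuation ((r2 : AlgebraicClosure ℚ) - r1) ^ 2 < 1 := pow_lt_one₀ zero_le hlt (by norm_num)
  rw [one_mul, one_mul] at hU'
  rw [← hU'] at this
  exact lt_irrefl _ this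

end Fermat.Agent.S13
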