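import Fermat.Prelude.Def_FLTPrelim_CofixedLine
import Fermat.Agent.S13.Groups
import Fermat.Agent.S13.Global
import Fermat.Agent.S13.Rational

set_option autoImplicit false
open WeierstrassCurve WeierstrassCurve.Affine WeierstrassCurve.Affine.Point
open FreyPackage

namespace Fermat.Agent.S13

attribute [local instance 100000] AlgebraicClosure.instAlgebra

theorem main (P : FreyPackage) (hred : ¬ GaloisRepIsIrreducible (K := AlgebraicClosure ℚ) ℚ P.freyCurve P.p) : HasGaloisStableCofixedLine (K := AlgebraicClosure ℚ) ℚ P.freyCurve P.p := by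
  have : Fact P.p.Prime := ⟨P.pp⟩
  have hnt := nontrivial_torsP P
  have hcard := card_torsP P
  unfold GaloisRepIsIrreducible at hred
  push Not at hred
  obtain ⟨N, hNs, hN0, hN1⟩ := hred hnt
  obtain ⟨L, hLfin, hL⟩ := exists_finite_field P
  have hLfix : L.fixingSubgroup ≤ fixN N := fun σ hσ x _ => hL σ hσ x
  have hLcofix : L.fixingSubgroup ≤ cofixN N hNs := fun σ hσ x => by
    rw [hL σ hσ x, sub_self]; exact N.zero_mem
  have htors : ∀ x : TorsP P, P.p • x.1 = 0 := fun x => by
    have h := (Submodule.mem_torsionBy_iff _ _).mp x.2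
    rwa [natCast_zsmul] at h
  -- the local theorem
  have hsq : ∀ (q : ℕ), q.Prime → ∀ A : ValuationSubring (AlgebraicClosure ℚ),
      A.LiesOverPrime q → ∀ σ ∈ A.inertiaSubgroupIn ℚ, ∀ x : TorsP P,
      KerRed A (σ • (σ • x - x) - (σ • x - x) : TorsP P).1 :=
    fun q hq A hA σ hσ x => frey_inertia_sq P hq A hA hσ x.1
  -- primes different from `p`
  have haway : ∀ (q : ℕ), q.Prime → q ≠ P.p → ∀ A : ValuationSubring (AlgebraicClosure ℚ),
      A.LiesOverPrime q → A.inertiaSubgroupIn ℚ ≤ fixN N ⊓ cofixN N hNs := by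
    intro q hq hqp A hA σ hσ
    have hz : ∀ x : TorsP P, σ • (σ • x - x) - (σ • x - x) = 0 := fun x =>
      Subtype.ext (frey_kerRed_torsion P hq A hA hqp (hsq q hq A hA σ hσ x) (htors _))
    refine ⟨?_, ?_⟩
    · exact fix_of_sq_mem_of_inf_eq_bot hcard N ⊥ hN0 hN1 (actLin P σ) (hNs σ)
        (fun x => by simp only [actLin_apply, hz x, Submodule.zero_mem]) (inf_bot_eq N)
    · exact sub_mem_of_sq_mem hcard N hN0 hN1 (actLin P σ) (hNs σ)
        (fun x => by simp only [actLin_apply, hz x, Submodule.zero_mem])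
  -- the prime `p`
  obtain ⟨A, hA⟩ := S54.exists_liesOverPrime P.pp
  let M0 : AddSubgroup (TorsP P) :=
    { carrier := {x | KerRed A x.1}
      add_mem' := fun {x y} hx hy => frey_kerRed_add P P.pp A hA hx hy
      zero_mem' := Or.inl rfl
      neg_mem' := fun {x} hx => KerRed.neg hx }
  let M : Submodule (ZMod P.p) (TorsP P) := AddSubgroup.toZModSubmodule P.p M0
  have hMmem : ∀ x : TorsP P, x ∈ M ↔ KerRed A x.1 := fun x => Iff.rfl
  have hM : M ≠ ⊤ := by
    intro htop
    obtain ⟨Q, hQ, hQk⟩ := exists_torsion_not_kerRed P A hA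
      ((fun x : TorsP P => x.1) '' {x | x ∈ N ∧ x ≠ 0}) (Set.toFinite _)
      (by
        obtain ⟨x, hx, hx0⟩ := Submodule.exists_mem_ne_zero_of_ne_bot hN0
        exact ⟨x.1, x, ⟨hx, hx0⟩, rfl⟩)
      (by
        rintro _ ⟨x, ⟨_, hx0⟩, rfl⟩ h
        exact hx0 (Subtype.ext h))
      (by
        rintro _ ⟨x, _, rfl⟩
        exact htors x)
      (by
        rintro σ _ ⟨x, ⟨hx, hx0⟩, rfl⟩
        exact ⟨σ • x, ⟨hNs σ x hx, fun h => hx0 ((smul_eq_zero_iff_eq σ).mp h)⟩, rfl⟩)
      (by
        have h1 : ((fun x : TorsP P => x.1) '' {x | x ∈ N ∧ x ≠ 0}).ncard ≤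
            {x : TorsP P | x ∈ N ∧ x ≠ 0}.ncard := Set.ncard_image_le (Set.toFinite _)
        have h2 : {x : TorsP P | x ∈ N ∧ x ≠ 0}.ncard < (N : Set (TorsP P)).ncard := by
          apply Set.ncard_lt_ncard _ (Set.toFinite _)
          refine ⟨fun x hx => hx.1, fun h => ?_⟩
          exact (h N.zero_mem).2 rfl
        have h3 : (N : Set (TorsP P)).ncard = P.p := by
          rw [← _root_.Nat.card_coe_set_eq]
          exact card_eq_of_line hcard N hN0 hN1
        omega)
    have hmem : (⟨Q, (Submodule.mem_torsionBy_iff _ _).2 (by rwa [natCast_zsmul])⟩ : TorsP P) ∈ M :=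
      htop ▸ Submodule.mem_top
    exact hQk hmem
  rcases eq_or_inf_eq_bot hcard N M hN0 hN1 hM with hMN | hMN
  · -- inertia at `p` acts trivially on the quotient
    have hp : A.inertiaSubgroupIn ℚ ≤ cofixN N hNs := fun σ hσ =>
      sub_mem_of_sq_mem hcard N hN0 hN1 (actLin P σ) (hNs σ)
        (fun x => hMN ▸ (hMmem _).mpr (hsq P.p P.pp A hA σ hσ x))
    have htop : cofixN N hNs = ⊤ := eq_top_of_inertia_le _ (cofixN_normal N hNs) L hLfin hLcofix
      (fun q hq => by
        by_cases hqp : q = P.p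
        · subst hqp; exact ⟨A, hA, hp⟩
        · obtain ⟨A', hA'⟩ := S54.exists_liesOverPrime hq
          exact ⟨A', hA', (haway q hq hqp A' hA').trans inf_le_right⟩)
    exact ⟨N, hNs, hN0, hN1, fun σ x => (htop ▸ Subgroup.mem_top σ : σ ∈ cofixN N hNs) x⟩
  · -- inertia at `p` acts trivially on the line: contradiction
    exfalso
    have hp : A.inertiaSubgroupIn ℚ ≤ fixN N := fun σ hσ =>
      fix_of_sq_mem_of_inf_eq_bot hcard N M hN0 hN1 (actLin P σ) (hNs σ)
        (fun x => (hMmem _).mpr (hsq P.p P.pp A hA σ hσ x)) hMN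
    have htop : fixN N = ⊤ := eq_top_of_inertia_le _ (fixN_normal N hNs) L hLfin hLfix
      (fun q hq => by
        by_cases hqp : q = P.p
        · subst hqp; exact ⟨A, hA, hp⟩
        · obtain ⟨A', hA'⟩ := S54.exists_liesOverPrime hq
          exact ⟨A', hA', (haway q hq hqp A' hA').trans inf_le_left⟩)
    obtain ⟨v, hv, hv0⟩ := Submodule.exists_mem_ne_zero_of_ne_bot hN0
    exact no_rational_torsion P v.1 (fun h => hv0 (Subtype.ext h)) (htors v)
      (fun σ => congrArg Subtype.val ((htop ▸ Subgroup.mem_top σ : σ ∈ fixN N) v hv))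

end Fermat.Agent.S13
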