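import Fermat.Agent.S13.Local
import Fermat.Agent.S05.KernelRed

/-!
# S13, piece L (Frey part): `(σ - 1)² Q` lies in the kernel of reduction for `σ` in inertia
-/

set_option autoImplicit false
set_option linter.unusedSectionVars false

namespace Fermat.Agent.S13

open WeierstrassCurve WeierstrassCurve.Affine Fermat.Agent.S05

local notation "Qbar" => AlgebraicClosure ℚ

attribute [local instance 100000] AlgebraicClosure.instAlgebra

/-- The kernel of reduction at the valuation subring `A`. -/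
def KerRed {K : Type*} [Field K] (A : ValuationSubring K) {W : Affine K} (Q : W.Point) : Prop :=
  Q = 0 ∨ pX Q ∉ A

lemma kerRed_iff (A : ValuationSubring Qbar) {q : ℕ} (hq : q.Prime) (hA : A.LiesOverPrime q)
    {W : Affine Qbar} (Q : W.Point) : KerRed A Q ↔ InE1 (qvalA A hq hA) 0 Q := by
  rcases Q with _ | ⟨x, y, h⟩
  · exact ⟨fun _ => Or.inl rfl, fun _ => Or.inl rfl⟩
  · unfold KerRed InE1
    rw [xi_some, sub_zero, pX_some, qvalA_GE_iff]

lemma KerRed.neg {K : Type*} [Field K] [DecidableEq K] {A : ValuationSubring K} {W : Affine K}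
    {Q : W.Point} (h : KerRed A Q) : KerRed A (-Q) := by
  rcases h with rfl | h
  · exact Or.inl rfl
  · exact Or.inr (by rwa [pX_neg])

section arith

variable (P : FreyPackage)

lemma frey_b_pow : ∃ k : ℤ, P.b ^ P.p = 32 * k := by
  have h2 : (2 : ℤ) ∣ P.b := (ZMod.intCast_zmod_eq_zero_iff_dvd P.b 2).1 P.hb2
  have h5 : (2 : ℤ) ^ 5 ∣ P.b ^ 5 := pow_dvd_pow_of_dvd h2 5
  have : (32 : ℤ) ∣ P.b ^ P.p := by
    have e : (32 : ℤ) = 2 ^ 5 := by norm_num
    rw [e]; exact h5.trans (pow_dvd_pow _ P.hp5)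
  exact this

lemma frey_a_pow : ∃ j : ℤ, P.a ^ P.p + 1 = 4 * j := by
  have : (4 : ℤ) ∣ P.a ^ P.p + 1 := by
    have h := (ZMod.intCast_zmod_eq_zero_iff_dvd (P.a ^ P.p + 1) 4).1
    apply h
    push_cast
    rw [P.ha4]
    have e : (3 : ZMod 4) = -1 := by decide
    rw [e, P.hp_odd.neg_one_pow]
    ring
  exact this

lemma frey_a_odd : ¬ (2 : ℤ) ∣ P.a := by
  intro h
  have h2 : (2 : ℤ) ∣ P.b := (ZMod.intCast_zmod_eq_zero_iff_dvd P.b 2).1 P.hb2
  have h1 := dvd_gcd h h2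
  rw [P.hgcdab] at h1
  norm_num at h1

lemma frey_a₂_int : ∃ n : ℤ, (P.freyCurve⁄Qbar).a₂ = (n : Qbar) := by
  obtain ⟨k, hk⟩ := frey_b_pow P
  obtain ⟨j, hj⟩ := frey_a_pow P
  refine ⟨8 * k - j, ?_⟩
  have hk' : (P.b : Qbar) ^ P.p = 32 * k := by exact_mod_cast congrArg (Int.cast : ℤ → Qbar) hk
  have hj' : (P.a : Qbar) ^ P.p + 1 = 4 * j := by exact_mod_cast congrArg (Int.cast : ℤ → Qbar) hj
  rw [frey_a₂]
  push_cast
  linear_combination (1 / 4 : Qbar) * hk' - (1 / 4 : Qbar) * hj'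

lemma frey_a₄_int : ∃ k : ℤ, (P.freyCurve⁄Qbar).a₄ = ((2 * (-(P.a ^ P.p) * k) : ℤ) : Qbar) := by
  obtain ⟨k, hk⟩ := frey_b_pow P
  refine ⟨k, ?_⟩
  have hk' : (P.b : Qbar) ^ P.p = 32 * k := by exact_mod_cast congrArg (Int.cast : ℤ → Qbar) hk
  rw [frey_a₄, hk']
  push_cast
  ring

lemma frey_b₂ : (P.freyCurve⁄Qbar).b₂ = ((P.b ^ P.p - P.a ^ P.p : ℤ) : Qbar) := by
  rw [WeierstrassCurve.b₂, frey_a₁, frey_a₂]
  push_cast
  ring

lemma frey_a₄_ne_zero : (P.freyCurve⁄Qbar).a₄ ≠ 0 := by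
  rw [frey_a₄]
  have ha0 : (P.a : Qbar) ≠ 0 := by exact_mod_cast P.ha0
  have hb0 : (P.b : Qbar) ≠ 0 := by exact_mod_cast P.hb0
  exact div_ne_zero (mul_ne_zero (neg_ne_zero.mpr (pow_ne_zero P.p ha0)) (pow_ne_zero P.p hb0))
    (by norm_num)

lemma frey_Δ_ne_zero : (P.freyCurve⁄Qbar).Δ ≠ 0 := by
  have tt := frey_twoTors P
  have hFLT := frey_FLT P
  have ha0 : (P.a : Qbar) ≠ 0 := by exact_mod_cast P.ha0
  have hb0 : (P.b : Qbar) ≠ 0 := by exact_mod_cast P.hb0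
  have hc0 : (P.c : Qbar) ≠ 0 := by exact_mod_cast P.hc0
  rw [tt.Δ_eq]
  have h1 : (0 : Qbar) - (P.a : Qbar) ^ P.p / 4 ≠ 0 := by
    simpa using pow_ne_zero P.p ha0
  have h2 : (0 : Qbar) - -((P.b : Qbar) ^ P.p) / 4 ≠ 0 := by
    simpa using pow_ne_zero P.p hb0
  have h3 : (P.a : Qbar) ^ P.p / 4 - -((P.b : Qbar) ^ P.p) / 4 ≠ 0 := by
    have : (P.a : Qbar) ^ P.p / 4 - -((P.b : Qbar) ^ P.p) / 4 = (P.c : Qbar) ^ P.p / 4 := by
      rw [← hFLT]; ring
    rw [this]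
    simpa using pow_ne_zero P.p hc0
  exact mul_ne_zero (mul_ne_zero (mul_ne_zero (by norm_num) (pow_ne_zero 2 h1))
    (pow_ne_zero 2 h2)) (pow_ne_zero 2 h3)

end arith

section ctx

variable (P : FreyPackage) {q : ℕ} (hq : q.Prime)
  (A : ValuationSubring Qbar) (hA : A.LiesOverPrime q) {σ : Qbar ≃ₐ[ℚ] Qbar}
  (hσ : σ ∈ A.inertiaSubgroupIn ℚ)

lemma frey_a1_GE : (qvalA A hq hA).GE 0 (P.freyCurve⁄Qbar).a₁ := by
  rw [frey_a₁]; exact QVal.EQ.one.ge'

lemma frey_a2_GE : (qvalA A hq hA).GE 0 (P.freyCurve⁄Qbar).a₂ := by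
  obtain ⟨n, hn⟩ := frey_a₂_int P
  rw [hn]; exact QVal.GE.intCast n

lemma frey_a3_GE : (qvalA A hq hA).GE 0 (P.freyCurve⁄Qbar).a₃ := by
  rw [frey_a₃]; exact QVal.GE.zero _

lemma frey_a4_GE : (qvalA A hq hA).GE 0 (P.freyCurve⁄Qbar).a₄ := by
  obtain ⟨n, hn⟩ := frey_a₄_int P
  rw [hn]; exact QVal.GE.intCast _

lemma frey_a6_GE : (qvalA A hq hA).GE 0 (P.freyCurve⁄Qbar).a₆ := by
  rw [frey_a₆]; exact QVal.GE.zero _

lemma frey_b_GE : (qvalA A hq hA).GE 0 (P.freyCurve⁄Qbar).b₂ ∧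
    (qvalA A hq hA).GE 0 (P.freyCurve⁄Qbar).b₄ ∧ (qvalA A hq hA).GE 0 (P.freyCurve⁄Qbar).b₆ ∧
    (qvalA A hq hA).GE 0 (P.freyCurve⁄Qbar).b₈ :=
  b_GE (frey_a1_GE P hq A hA) (frey_a2_GE P hq A hA) (frey_a3_GE P hq A hA)
    (frey_a4_GE P hq A hA) (frey_a6_GE P hq A hA)

include hq hA in
/-- the kernel of reduction of the Frey curve is closed under addition. -/
theorem frey_kerRed_add {Q Q' : (P.freyCurve⁄Qbar).Point} (h : KerRed A Q) (h' : KerRed A Q') :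
    KerRed A (Q + Q') := by
  obtain ⟨b2, b4, b6, b8⟩ := frey_b_GE P hq A hA
  rw [kerRed_iff A hq hA] at h h' ⊢
  exact inE1_add b2 b4 b6 b8 h h'

include hq hA in
/-- the kernel of reduction of the Frey curve at `q ≠ p` has no `p`-torsion. -/
theorem frey_kerRed_torsion (hqp : q ≠ P.p) {Q : (P.freyCurve⁄Qbar).Point} (h : KerRed A Q)
    (hQ : P.p • Q = 0) : Q = 0 := by
  by_contra hQ0
  obtain ⟨b2, b4, b6, b8⟩ := frey_b_GE P hq A hA
  rw [qvalA_GE_iff] at b2 b4 b6 b8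
  have hp : A.valuation ((P.p : ℕ) : Qbar) = 1 := by
    have h1 : ¬ (q : ℤ) ∣ ((P.p : ℕ) : ℤ) := by
      intro h
      exact hqp ((Nat.prime_dvd_prime_iff_eq hq P.pp).mp (Int.natCast_dvd_natCast.mp h))
    have := v_int_eq_one (val_int_le_one A) hq hA h1
    simpa using this
  exact kernelRed_nsmul_ne_zero A b2 b4 b6 b8 hp Q hQ0 (h.resolve_left hQ0) hQ

include hσ in
/-- the node context at `(0, 0)` when `q ∣ a b`. -/
lemma frey_nodeCtx_zero (hab : (q : ℤ) ∣ P.a * P.b) :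
    NodeCtx (qvalA A hq hA) (P.freyCurve⁄Qbar) 0 0 (P.freyCurve⁄Qbar).a₄
      ((qvalA A hq hA).w (P.freyCurve⁄Qbar).a₄) σ.toAlgHom.toRingHom
      (Point.map (W' := P.freyCurve) σ.toAlgHom) where
  a1 := frey_a1_GE P hq A hA
  a2 := frey_a2_GE P hq A hA
  a3 := frey_a3_GE P hq A hA
  a4 := frey_a4_GE P hq A hA
  a6 := frey_a6_GE P hq A hA
  he := QVal.GE.zero _
  h3 := by rw [frey_a₃]; ring
  hns := by
    apply (equation_iff_nonsingular_of_Δ_ne_zero (frey_Δ_ne_zero P)).mp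
    rw [equation_iff, frey_a₆]; ring
  hβ := by ring
  Eβ := QVal.EQ.mk' (frey_a₄_ne_zero P)
  hδ := by
    obtain ⟨k, hk⟩ := frey_b_pow P
    have hk' : (P.b : Qbar) ^ P.p = 32 * k := by
      exact_mod_cast congrArg (Int.cast : ℤ → Qbar) hk
    have e4 : (P.freyCurve⁄Qbar).a₄ = ((2 * (-(P.a ^ P.p) * k) : ℤ) : Qbar) := by
      rw [frey_a₄, hk']; push_cast; ring
    have hne := frey_a₄_ne_zero P
    rw [e4] at hne ⊢
    refine qvalA_pos_int A hq hA (by exact_mod_cast hne) ?_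
    have hqp := Nat.prime_iff_prime_int.mp hq
    by_cases hq2 : q = 2
    · subst hq2; exact Dvd.intro _ rfl
    rcases hqp.dvd_or_dvd hab with h | h
    · exact Dvd.dvd.mul_left (Dvd.dvd.mul_right ((dvd_neg).mpr (dvd_pow h P.hp0)) _) _
    · have h1 : (q : ℤ) ∣ 32 * k := hk ▸ dvd_pow h P.hp0
      rcases hqp.dvd_or_dvd h1 with h2 | h2
      · exfalso
        have e : (32 : ℤ) = 2 ^ 5 := by norm_num
        rw [e] at h2
        have h3 : (q : ℤ) ∣ ((2 : ℕ) : ℤ) := by simpa using hqp.dvd_of_dvd_pow h2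
        exact hq2 ((Nat.prime_dvd_prime_iff_eq hq Nat.prime_two).mp
          (Int.natCast_dvd_natCast.mp h3))
      · exact Dvd.dvd.mul_left (Dvd.dvd.mul_left h2 _) _
  Eb2 := by
    rw [mul_zero, add_zero, frey_b₂]
    apply qvalA_EQ_int
    have hqp := Nat.prime_iff_prime_int.mp hq
    intro hd
    rcases hqp.dvd_or_dvd hab with h | h
    · have hb : ¬ (q : ℤ) ∣ P.b := not_dvd_of_gcd_eq_one hq P.hgcdab h
      apply hb
      apply hqp.dvd_of_dvd_pow (n := P.p)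
      have := dvd_add hd (dvd_pow h P.hp0 : (q : ℤ) ∣ P.a ^ P.p)
      simpa using this
    · have ha : ¬ (q : ℤ) ∣ P.a := not_dvd_of_gcd_eq_one hq (by rw [gcd_comm]; exact P.hgcdab) h
      apply ha
      apply hqp.dvd_of_dvd_pow (n := P.p)
      have := dvd_sub (dvd_pow h P.hp0 : (q : ℤ) ∣ P.b ^ P.p) hd
      simpa using this
  σw := fun x hx => qvalA_w_inertia hq hA hσ hx
  σm := fun x hx => qvalA_GT_inertia hq hA hσ hx
  σe := map_zero _
  σt := map_zero _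
  Φsome := fun x y h => ⟨_, Point.map_some _ h⟩

include hσ in
/-- the node context at `(a^p/4, -a^p/8)` when `q ∣ c`. -/
lemma frey_nodeCtx_c (hq2 : q ≠ 2) (hc : (q : ℤ) ∣ P.c) :
    NodeCtx (qvalA A hq hA) (P.freyCurve⁄Qbar) ((P.a : Qbar) ^ P.p / 4) (-((P.a : Qbar) ^ P.p) / 8)
      ((P.a : Qbar) ^ P.p * (P.c : Qbar) ^ P.p / 16)
      ((qvalA A hq hA).w ((P.a : Qbar) ^ P.p * (P.c : Qbar) ^ P.p / 16)) σ.toAlgHom.toRingHom
      (Point.map (W' := P.freyCurve) σ.toAlgHom) := by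
  have E2 := qvalA_two hq hq2 A hA
  have E4 := four_EQ E2
  have E16 : (qvalA A hq hA).EQ 0 (16 : Qbar) := by
    have : (16 : Qbar) = 4 * 4 := by norm_num
    rw [this]; simpa using E4.mul E4
  have hFLT := frey_FLT P
  have ha0 : (P.a : Qbar) ≠ 0 := by exact_mod_cast P.ha0
  have hc0 : (P.c : Qbar) ≠ 0 := by exact_mod_cast P.hc0
  have hqp := Nat.prime_iff_prime_int.mp hq
  have ha : ¬ (q : ℤ) ∣ P.a := not_dvd_of_gcd_eq_one hq (by rw [gcd_comm]; exact P.hgcdac) hc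
  have hβ0 : (P.a : Qbar) ^ P.p * (P.c : Qbar) ^ P.p / 16 ≠ 0 :=
    div_ne_zero (mul_ne_zero (pow_ne_zero _ ha0) (pow_ne_zero _ hc0)) (by norm_num)
  exact
  { a1 := frey_a1_GE P hq A hA
    a2 := frey_a2_GE P hq A hA
    a3 := frey_a3_GE P hq A hA
    a4 := frey_a4_GE P hq A hA
    a6 := frey_a6_GE P hq A hA
    he := by simpa using ((QVal.GE.intCast (V := qvalA A hq hA) P.a).pow P.p).div E4
    h3 := by rw [frey_a₁, frey_a₃]; ring
    hns := by
      apply (equation_iff_nonsingular_of_Δ_ne_zero (frey_Δ_ne_zero P)).mp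
      rw [equation_iff, frey_a₁, frey_a₂, frey_a₃, frey_a₄, frey_a₆]; ring
    hβ := by rw [frey_a₁, frey_a₂, frey_a₄, ← hFLT]; ring
    Eβ := QVal.EQ.mk' hβ0
    hδ := by
      have hw : 0 < (qvalA A hq hA).w (P.c : Qbar) := qvalA_pos_int A hq hA P.hc0 hc
      have hppos : (0 : ℚ) < P.p := by exact_mod_cast P.hppos
      have E := (((qvalA_pow_unit hq A hA ha P.p).mul
        ((QVal.EQ.mk' (V := qvalA A hq hA) hc0).pow P.p)).div E16)
      rw [E.2]
      have := mul_pos hppos hw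
      linarith
    Eb2 := by
      have e : (P.freyCurve⁄Qbar).b₂ + 12 * ((P.a : Qbar) ^ P.p / 4) =
          ((P.c ^ P.p + P.a ^ P.p : ℤ) : Qbar) := by
        rw [frey_b₂]; push_cast; rw [← hFLT]; ring
      rw [e]
      apply qvalA_EQ_int
      intro hd
      apply ha
      apply hqp.dvd_of_dvd_pow (n := P.p)
      have := dvd_sub hd (dvd_pow hc P.hp0 : (q : ℤ) ∣ P.c ^ P.p)
      simpa using this
    σw := fun x hx => qvalA_w_inertia hq hA hσ hx
    σm := fun x hx => qvalA_GT_inertia hq hA hσ hx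
    σe := by
      show σ _ = _
      rw [map_div₀, map_pow, map_intCast, map_ofNat]
    σt := by
      show σ _ = _
      rw [map_div₀, map_neg, map_pow, map_intCast, map_ofNat]
    Φsome := fun x y h => ⟨_, Point.map_some _ h⟩ }

end ctx

/-- good reduction: every point is moved by an element of the kernel of reduction. -/
theorem good_sub {K : Type*} [Field K] [DecidableEq K] [CharZero K] {V : QVal K} {W : Affine K}
    {e1 e2 e3 : K} {σ : K →+* K} {Φ : W.Point →+ W.Point} (C : Ctx V W e1 e2 e3 σ Φ)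
    (h12 : V.EQ 0 (e1 - e2)) (h13 : V.EQ 0 (e1 - e3)) (h23 : V.EQ 0 (e2 - e3))
    (S : W.Point) : InE1 V e1 (Φ S - S) := by
  by_cases hE : InE1 V e1 S
  · exact C.sub_InE1_of_InE1 hE
  rcases S with _ | ⟨x, y, h⟩
  · exact absurd (Or.inl rfl) hE
  have hξ : V.GE 0 (x - e1) := by
    by_contra hc
    exact hE (Or.inr (by rwa [xi_some]))
  have hx : V.GE 0 x := by simpa using hξ.add C.he1
  apply C.sub_InE1_of_nonsing h hx
  have G2 : V.GE 0 (x - e2) := hx.sub C.he2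
  have G3 : V.GE 0 (x - e3) := hx.sub C.he3
  by_cases E1 : V.EQ 0 (x - e1)
  · by_cases E2 : V.EQ 0 (x - e2)
    · exact nonsing_red C.tt C.two C.a1 h.1 E1 E2 G3
    · have E3 : V.EQ 0 (x - e3) := by
        have : x - e3 = (e2 - e3) + (x - e2) := by ring
        rw [this]; exact h23.add_gt (G2.gt_of_not_EQ E2)
      exact nonsing_red C.tt.perm132 C.two C.a1 h.1 E1 E3 G2
  · have g1 := hξ.gt_of_not_EQ E1
    have E2 : V.EQ 0 (x - e2) := by
      have : x - e2 = (e1 - e2) + (x - e1) := by ring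
      rw [this]; exact h12.add_gt g1
    have E3 : V.EQ 0 (x - e3) := by
      have : x - e3 = (e1 - e3) + (x - e1) := by ring
      rw [this]; exact h13.add_gt g1
    exact nonsing_red C.tt.perm231 C.two C.a1 h.1 E2 E3 hξ

section main

variable (P : FreyPackage) {q : ℕ} (hq : q.Prime)
  (A : ValuationSubring Qbar) (hA : A.LiesOverPrime q) {σ : Qbar ≃ₐ[ℚ] Qbar}
  (hσ : σ ∈ A.inertiaSubgroupIn ℚ)

include hq hA hσ in
/-- **Local theorem**: for `σ` in the inertia group at any place, `(σ - 1)² Q` lies in the kernel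
of reduction. -/
theorem frey_inertia_sq (Q : (P.freyCurve⁄Qbar).Point) :
    KerRed A (σ • (σ • Q - Q) - (σ • Q - Q)) := by
  rw [kerRed_iff A hq hA]
  set V := qvalA A hq hA with hV
  show InE1 V 0 (Point.map (W' := P.freyCurve) σ.toAlgHom
    (Point.map (W' := P.freyCurve) σ.toAlgHom Q - Q) -
      (Point.map (W' := P.freyCurve) σ.toAlgHom Q - Q))
  have hqp := Nat.prime_iff_prime_int.mp hq
  by_cases hab : (q : ℤ) ∣ P.a * P.b
  · exact (frey_nodeCtx_zero P hq A hA hσ hab).node_sq Q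
  have hq2 : q ≠ 2 := by
    rintro rfl
    apply hab
    have h2 : (2 : ℤ) ∣ P.b := (ZMod.intCast_zmod_eq_zero_iff_dvd P.b 2).1 P.hb2
    exact Dvd.dvd.mul_left h2 _
  have ha : ¬ (q : ℤ) ∣ P.a := fun h => hab (Dvd.dvd.mul_right h _)
  have hb : ¬ (q : ℤ) ∣ P.b := fun h => hab (Dvd.dvd.mul_left h _)
  have E2 : V.EQ 0 (2 : Qbar) := qvalA_two hq hq2 A hA
  have E4 : V.EQ 0 (4 : Qbar) := four_EQ E2
  have GA : V.GE 0 ((P.a : Qbar) ^ P.p / 4) := by
    simpa using ((QVal.GE.intCast (V := V) P.a).pow P.p).div E4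
  by_cases hc : (q : ℤ) ∣ P.c
  · have C := frey_nodeCtx_c P hq A hA hσ hq2 hc
    exact (inE1_iff C.he _).mp (C.node_sq Q)
  · have GB : V.GE 0 (-((P.b : Qbar) ^ P.p) / 4) := by
      simpa using (((QVal.GE.intCast (V := V) P.b).pow P.p).neg).div E4
    have G0 : V.GE 0 (0 : Qbar) := QVal.GE.zero _
    have hFLT := frey_FLT P
    have C := frey_ctx P hq hq2 A hA hσ (frey_twoTors P) G0 GA GB (map_zero σ)
    have h12 : V.EQ 0 (0 - (P.a : Qbar) ^ P.p / 4) := by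
      have := ((qvalA_pow_unit hq A hA ha P.p).div E4).neg
      simpa using this
    have h13 : V.EQ 0 (0 - -((P.b : Qbar) ^ P.p) / 4) := by
      have := ((qvalA_pow_unit hq A hA hb P.p).div E4)
      have e : (0 : Qbar) - -((P.b : Qbar) ^ P.p) / 4 = (P.b : Qbar) ^ P.p / 4 := by ring
      rw [e]; simpa using this
    have h23 : V.EQ 0 ((P.a : Qbar) ^ P.p / 4 - -((P.b : Qbar) ^ P.p) / 4) := by
      have := ((qvalA_pow_unit hq A hA hc P.p).div E4)
      have e : (P.a : Qbar) ^ P.p / 4 - -((P.b : Qbar) ^ P.p) / 4 = (P.c : Qbar) ^ P.p / 4 := by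
        rw [← hFLT]; ring
      rw [e]; simpa using this
    exact C.sub_InE1_of_InE1 (good_sub C h12 h13 h23 Q)

end main

end Fermat.Agent.S13
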