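import Mathlib
import Fermat.Prelude.Def_FLTPrelim_Ramification

/-!
# S13, piece P1: a polynomial with leading coefficient `p`, integral constant term and a small
Galois stable set of roots has a root which is integral at a given place over `p`
-/

set_option autoImplicit false

namespace Fermat.Agent.S13

open Polynomial

/-- A rational number of valuation `> 1` at a place over `p` has `p`-multiple of valuation `≥ 1`. -/
theorem rootMem_rat (A : ValuationSubring (AlgebraicClosure ℚ)) {p : ℕ} (hp : p.Prime)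
    (hA : A.LiesOverPrime p) (r : ℚ)
    (hr : 1 < A.valuation (algebraMap ℚ (AlgebraicClosure ℚ) r)) :
    1 ≤ A.valuation (p : AlgebraicClosure ℚ) * A.valuation (algebraMap ℚ (AlgebraicClosure ℚ) r) := by
  have hpv : A.valuation (p : AlgebraicClosure ℚ) < 1 := (A.mem_nonunits_iff).mp hA
  have hint : ∀ m : ℤ, A.valuation (m : AlgebraicClosure ℚ) ≤ 1 := fun m =>
    (A.valuation_le_one_iff _).mpr (intCast_mem A m)
  have hr' : (algebraMap ℚ (AlgebraicClosure ℚ) r) =
      (r.num : AlgebraicClosure ℚ) / ((r.den : ℤ) : AlgebraicClosure ℚ) := by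
    conv_lhs => rw [← Rat.num_div_den r]
    simp
  have hden0 : ((r.den : ℤ) : AlgebraicClosure ℚ) ≠ 0 := by
    exact_mod_cast r.den_ne_zero
  have hvden0 : A.valuation ((r.den : ℤ) : AlgebraicClosure ℚ) ≠ 0 :=
    (Valuation.ne_zero_iff _).mpr hden0
  rw [hr', map_div₀] at hr ⊢
  -- units: integers prime to p
  have hunit : ∀ m : ℤ, ¬ (p : ℤ) ∣ m → A.valuation (m : AlgebraicClosure ℚ) = 1 := by
    intro m hm
    refine le_antisymm (hint m) (not_lt.mp fun hlt => ?_)
    have hcop : IsCoprime m (p : ℤ) := by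
      rw [isCoprime_comm]
      exact (Nat.prime_iff_prime_int.mp hp).coprime_iff_not_dvd.mpr hm
    obtain ⟨u, w, huw⟩ := hcop
    have h2 : ((u : AlgebraicClosure ℚ) * (m : AlgebraicClosure ℚ) +
        (w : AlgebraicClosure ℚ) * (p : AlgebraicClosure ℚ)) = 1 := by
      have := congrArg (Int.cast : ℤ → AlgebraicClosure ℚ) huw
      push_cast at this
      exact this
    have h3 : A.valuation ((u : AlgebraicClosure ℚ) * (m : AlgebraicClosure ℚ) +
        (w : AlgebraicClosure ℚ) * (p : AlgebraicClosure ℚ)) < 1 := by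
      refine lt_of_le_of_lt (Valuation.map_add _ _ _) (max_lt ?_ ?_)
      · rw [map_mul]
        exact lt_of_le_of_lt (mul_le_of_le_one_left' (hint u)) hlt
      · rw [map_mul]
        exact lt_of_le_of_lt (mul_le_of_le_one_left' (hint w)) hpv
    rw [h2, map_one] at h3
    exact lt_irrefl _ h3
  have hpden : (p : ℤ) ∣ (r.den : ℤ) := by
    by_contra hcon
    rw [hunit _ hcon, div_one] at hr
    exact absurd (hint r.num) (not_le.mpr hr)
  have hpnum : ¬ (p : ℤ) ∣ r.num := by
    intro hcon
    have h1 : (p : ℤ) ∣ Int.gcd r.num (r.den : ℤ) := Int.dvd_coe_gcd hcon hpden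
    have h2 : Int.gcd r.num (r.den : ℤ) = 1 := by
      have := r.reduced
      simpa [Nat.Coprime, Int.gcd] using this
    rw [h2] at h1
    have h3 : (p : ℤ) ∣ 1 := by exact_mod_cast h1
    have := Int.eq_one_of_dvd_one (by positivity) h3
    have hp1 : p = 1 := by exact_mod_cast this
    exact hp.one_lt.ne' hp1
  obtain ⟨n', hn'⟩ := hpden
  have hvden : A.valuation ((r.den : ℤ) : AlgebraicClosure ℚ) ≤
      A.valuation (p : AlgebraicClosure ℚ) := by
    rw [hn']
    push_cast
    rw [map_mul]
    exact mul_le_of_le_one_right' (hint n')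
  rw [hunit _ hpnum, ← mul_div_assoc, mul_one, le_div_iff₀ (zero_lt_iff.mpr hvden0), one_mul]
  exact hvden

theorem rootMem_one_lt_prod {Γ : Type*} [LinearOrderedCommGroupWithZero Γ] (m : Multiset Γ)
    (h : ∀ x ∈ m, 1 < x) (hm : m ≠ 0) : 1 < m.prod := by
  induction m using Multiset.induction_on with
  | empty => exact absurd rfl hm
  | cons a m ih =>
    rw [Multiset.prod_cons]
    have ha : 1 < a := h a (Multiset.mem_cons_self a m)
    by_cases hm0 : m = 0
    · simpa [hm0] using ha
    · have h1 := ih (fun x hx => h x (Multiset.mem_cons_of_mem hx)) hm0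
      exact one_lt_mul_of_lt_of_le' ha h1.le

theorem exists_root_mem (A : ValuationSubring (AlgebraicClosure ℚ)) {p : ℕ} (hp : p.Prime)
    (hA : A.LiesOverPrime p) (C : (AlgebraicClosure ℚ)[X]) (d : ℕ) (hdeg : C.natDegree ≤ d)
    (hlead : C.coeff d = (p : AlgebraicClosure ℚ)) (h0 : C.coeff 0 ∈ A)
    (S : Finset (AlgebraicClosure ℚ)) (hS : S.Nonempty) (hroot : ∀ x ∈ S, C.eval x = 0)
    (hstab : ∀ σ : AlgebraicClosure ℚ ≃ₐ[ℚ] AlgebraicClosure ℚ, ∀ x ∈ S, σ x ∈ S)
    (hcard : S.card < d) :
    ∃ x : AlgebraicClosure ℚ, C.eval x = 0 ∧ x ∈ A := by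
  by_contra hcon
  push Not at hcon
  have hp0 : (p : AlgebraicClosure ℚ) ≠ 0 := by exact_mod_cast hp.ne_zero
  have hC0 : C ≠ 0 := by
    intro h; rw [h, coeff_zero] at hlead; exact hp0 hlead.symm
  have hnd : C.natDegree = d :=
    le_antisymm hdeg (le_natDegree_of_ne_zero (by rw [hlead]; exact hp0))
  have hlc : C.leadingCoeff = (p : AlgebraicClosure ℚ) := by
    rw [leadingCoeff, hnd, hlead]
  have hsplit : C.Splits := IsAlgClosed.splits C
  have hv : ∀ x ∈ C.roots, 1 < A.valuation x := by
    intro x hx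
    have := hcon x ((mem_roots hC0).mp hx)
    rw [← A.valuation_le_one_iff] at this
    exact not_le.mp this
  have hle : S.val ≤ C.roots := by
    rw [Multiset.le_iff_subset S.nodup]
    intro x hx
    exact (mem_roots hC0).mpr (hroot x hx)
  obtain ⟨rest, hrest⟩ := Multiset.le_iff_exists_add.mp hle
  have hrest0 : rest ≠ 0 := by
    intro h
    have h1 := hsplit.natDegree_eq_card_roots
    rw [hrest, h, add_zero, hnd] at h1
    have : S.val.card = S.card := rfl
    omega
  -- the product over `S` is rational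
  have hfix : ∀ σ : AlgebraicClosure ℚ ≃ₐ[ℚ] AlgebraicClosure ℚ, σ (∏ x ∈ S, x) = ∏ x ∈ S, x := by
    intro σ
    rw [map_prod]
    exact Finset.prod_bij' (fun x _ => σ x) (fun x _ => σ.symm x) (fun x hx => hstab σ x hx)
      (fun x hx => hstab σ.symm x hx) (fun x _ => by simp) (fun x _ => by simp) (fun x _ => rfl)
  have h1 : Algebra.IsAlgebraic ℚ (AlgebraicClosure ℚ) := AlgebraicClosure.isAlgebraic ℚ
  have h2 : IsAlgClosure ℚ (AlgebraicClosure ℚ) := ⟨inferInstance, h1⟩
  have h3 : IsGalois ℚ (AlgebraicClosure ℚ) := {}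
  obtain ⟨r, hr⟩ := (InfiniteGalois.mem_range_algebraMap_iff_fixed (∏ x ∈ S, x)).2 hfix
  have hSprod : 1 < A.valuation (∏ x ∈ S, x) := by
    have : A.valuation (∏ x ∈ S, x) = (S.val.map A.valuation).prod := by
      rw [map_prod]; rfl
    rw [this]
    refine rootMem_one_lt_prod _ ?_ ?_
    · intro y hy
      obtain ⟨x, hx, rfl⟩ := Multiset.mem_map.mp hy
      exact hv x (Multiset.mem_of_le hle hx)
    · intro h
      rw [Multiset.map_eq_zero, Finset.val_eq_zero] at h
      exact hS.ne_empty h
  have hkey := rootMem_rat A hp hA r (by rw [hr]; exact hSprod)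
  rw [hr] at hkey
  have hrestprod : 1 < (rest.map A.valuation).prod := by
    refine rootMem_one_lt_prod _ ?_ ?_
    · intro y hy
      obtain ⟨x, hx, rfl⟩ := Multiset.mem_map.mp hy
      exact hv x (by rw [hrest]; exact Multiset.mem_add.mpr (Or.inr hx))
    · intro h
      rw [Multiset.map_eq_zero] at h
      exact hrest0 h
  have hc0 := hsplit.coeff_zero_eq_leadingCoeff_mul_prod_roots
  have hval : A.valuation (C.coeff 0) =
      A.valuation (p : AlgebraicClosure ℚ) * A.valuation (∏ x ∈ S, x) *
        (rest.map A.valuation).prod := by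
    rw [hc0, hlc, hrest, Multiset.prod_add, map_mul, map_mul, map_mul, map_pow, Valuation.map_neg,
      map_one, one_pow, one_mul, map_multiset_prod A.valuation rest, ← mul_assoc]
    have : S.val.prod = ∏ x ∈ S, x := (Finset.prod_val S)
    rw [this]
  have hfinal : 1 < A.valuation (C.coeff 0) := by
    rw [hval]
    rw [mul_comm]
    exact one_lt_mul_of_lt_of_le' hrestprod hkey
  exact absurd ((A.valuation_le_one_iff _).mpr h0) (not_le.mpr hfinal)

end Fermat.Agent.S13
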