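import Fermat.Agent.S13.Ladder
import Fermat.Agent.S13.RootMem
import Fermat.Agent.S13.FreyLocal
import Fermat.Agent.S51.Count

/-!
# S13: the `p`-torsion of the Frey curve: existence, cardinality, not contained in the kernel of
reduction at `p`
-/

set_option autoImplicit false
set_option linter.unusedSectionVars false

namespace Fermat.Agent.S13

open WeierstrassCurve WeierstrassCurve.Affine Fermat.Agent.S05 Polynomial

local notation "Qbar" => AlgebraicClosure ℚ

attribute [local instance 100000] AlgebraicClosure.instAlgebra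

variable (P : FreyPackage)

/-- `p = 2 m + 1`. -/
def halfP : ℕ := (P.p - 1) / 2

lemma two_halfP : 2 * halfP P + 1 = P.p := by
  obtain ⟨k, hk⟩ := P.hp_odd
  unfold halfP
  omega

lemma halfP_pos : 2 ≤ halfP P := by
  have := two_halfP P
  have := P.hp5
  omega

/-- the torsion polynomial of the Frey curve. -/
noncomputable def freyTors : Qbar[X] := torsPoly (P.freyCurve⁄Qbar) (halfP P)

lemma freyTors_natDegree_le : (freyTors P).natDegree ≤ 2 * halfP P ^ 2 + 2 * halfP P :=
  torsPoly_natDegree_le _ _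

lemma freyTors_coeff : (freyTors P).coeff (2 * halfP P ^ 2 + 2 * halfP P) = (P.p : Qbar) := by
  unfold freyTors
  rw [torsPoly_coeff, two_halfP]

lemma freyTors_ne_zero : freyTors P ≠ 0 := by
  intro h
  have := freyTors_coeff P
  rw [h, coeff_zero] at this
  exact (Nat.cast_ne_zero.mpr P.hp0) this.symm

lemma freyTors_natDegree : (freyTors P).natDegree = 2 * halfP P ^ 2 + 2 * halfP P := by
  apply le_antisymm (freyTors_natDegree_le P)
  apply le_natDegree_of_ne_zero
  rw [freyTors_coeff]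
  exact Nat.cast_ne_zero.mpr P.hp0

lemma freyTors_eval_iff {x y : Qbar} (h : (P.freyCurve⁄Qbar).Nonsingular x y) :
    (freyTors P).eval x = 0 ↔ P.p • (Point.some x y h) = 0 := by
  unfold freyTors
  rw [torsPoly_eval_eq_zero_iff _ _ h, two_halfP]

lemma freyTors_coeff_mem (A : ValuationSubring Qbar) (i : ℕ) : (freyTors P).coeff i ∈ A := by
  obtain ⟨n, hn⟩ := frey_a₂_int P
  obtain ⟨k, hk⟩ := frey_a₄_int P
  have hE : (P.freyCurve⁄Qbar) =
      (⟨1, n, 0, 2 * (-(P.a ^ P.p) * k), 0⟩ : WeierstrassCurve ℤ).map (Int.castRingHom Qbar) := by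
    ext
    · rw [frey_a₁]; simp
    · rw [hn]; simp
    · rw [frey_a₃]; simp
    · rw [hk]; simp
    · rw [frey_a₆]; simp
  unfold freyTors
  rw [hE, torsPoly_map, coeff_map]
  exact intCast_mem A _

lemma exists_nonsingular_frey (x : Qbar) : ∃ y, (P.freyCurve⁄Qbar).Nonsingular x y := by
  obtain ⟨y, hy⟩ := IsAlgClosed.exists_root (S51.countQuad (P.freyCurve⁄Qbar) x) (by
    rw [degree_eq_natDegree (S51.countQuad_ne_zero _ x), S51.countQuad_natDegree]
    norm_num)
  refine ⟨y, (equation_iff_nonsingular_of_Δ_ne_zero (frey_Δ_ne_zero P)).mp ?_⟩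
  rw [equation_iff]
  simp only [S51.countQuad, IsRoot.def, eval_sub, eval_add, eval_pow, eval_X, eval_mul,
    eval_C] at hy
  linear_combination hy

/-- (T1) there is a nonzero `p`-torsion point. -/
theorem exists_frey_torsion : ∃ Q : (P.freyCurve⁄Qbar).Point, Q ≠ 0 ∧ P.p • Q = 0 := by
  obtain ⟨x, hx⟩ := IsAlgClosed.exists_root (freyTors P) (by
    rw [degree_eq_natDegree (freyTors_ne_zero P), freyTors_natDegree]
    have := halfP_pos P
    have : 2 * halfP P ^ 2 + 2 * halfP P ≠ 0 := by positivity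
    exact_mod_cast this)
  obtain ⟨y, hy⟩ := exists_nonsingular_frey P x
  exact ⟨Point.some x y hy, Point.some_ne_zero hy, (freyTors_eval_iff P hy).mp hx⟩

/-- (T2) there are at most `p²` `p`-torsion points. -/
theorem frey_torsion_card :
    {Q : (P.freyCurve⁄Qbar).Point | P.p • Q = 0}.Finite ∧
      {Q : (P.freyCurve⁄Qbar).Point | P.p • Q = 0}.ncard ≤ P.p ^ 2 := by
  obtain ⟨h1, h2⟩ := S51.finite_and_ncard_le (P.freyCurve⁄Qbar) (freyTors P) (freyTors_ne_zero P)
    {Q : (P.freyCurve⁄Qbar).Point | P.p • Q = 0}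
    (fun x y h hQ => (freyTors_eval_iff P h).mpr hQ)
  refine ⟨h1, h2.trans ?_⟩
  rw [freyTors_natDegree, ← two_halfP P]
  apply le_of_eq
  ring

/-- (P1) if there is a small nonempty Galois stable set of nonzero `p`-torsion points, then not all
`p`-torsion points lie in the kernel of reduction at a place over `p`. -/
theorem exists_torsion_not_kerRed (A : ValuationSubring Qbar) (hA : A.LiesOverPrime P.p)
    (T : Set (P.freyCurve⁄Qbar).Point) (hTfin : T.Finite) (hTne : T.Nonempty)
    (hT0 : ∀ Q ∈ T, Q ≠ 0) (hTp : ∀ Q ∈ T, P.p • Q = 0)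
    (hTstab : ∀ σ : Qbar ≃ₐ[ℚ] Qbar, ∀ Q ∈ T, σ • Q ∈ T) (hTcard : T.ncard < P.p) :
    ∃ Q : (P.freyCurve⁄Qbar).Point, P.p • Q = 0 ∧ ¬ KerRed A Q := by
  classical
  set S : Finset Qbar := hTfin.toFinset.image pX with hS
  have hmem : ∀ x ∈ S, ∃ Q ∈ T, pX Q = x := by
    intro x hx
    rw [hS, Finset.mem_image] at hx
    obtain ⟨Q, hQ, rfl⟩ := hx
    exact ⟨Q, hTfin.mem_toFinset.mp hQ, rfl⟩
  obtain ⟨x, hx, hxA⟩ := exists_root_mem A P.pp hA (freyTors P) _ (freyTors_natDegree_le P)
    (freyTors_coeff P) (freyTors_coeff_mem P A 0) S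
    (by
      obtain ⟨Q, hQ⟩ := hTne
      exact ⟨pX Q, Finset.mem_image_of_mem _ (hTfin.mem_toFinset.mpr hQ)⟩)
    (by
      intro x hx
      obtain ⟨Q, hQ, rfl⟩ := hmem x hx
      have h0 := hT0 Q hQ
      have hp := hTp Q hQ
      rcases Q with _ | ⟨x, y, h⟩
      · exact absurd rfl h0
      · exact (freyTors_eval_iff P h).mpr hp)
    (by
      intro σ x hx
      obtain ⟨Q, hQ, rfl⟩ := hmem x hx
      have h0 := hT0 Q hQ
      have hσ := hTstab σ Q hQ
      rcases Q with _ | ⟨x, y, h⟩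
      · exact absurd rfl h0
      · exact Finset.mem_image_of_mem pX (hTfin.mem_toFinset.mpr hσ))
    (by
      have h1 : S.card ≤ T.ncard := by
        rw [Set.ncard_eq_toFinset_card T hTfin]
        exact Finset.card_image_le
      have h2 := two_halfP P
      have h3 := halfP_pos P
      nlinarith)
  obtain ⟨y, hy⟩ := exists_nonsingular_frey P x
  refine ⟨Point.some x y hy, (freyTors_eval_iff P hy).mp hx, ?_⟩
  rintro (h | h)
  · exact Point.some_ne_zero hy h
  · exact h hxA

end Fermat.Agent.S13
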