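import Mathlib
import Fermat.Agent.S05.XOnly

/-!
# S13, piece T: the torsion polynomial of odd order via Montgomery-ladder polynomials
-/

set_option autoImplicit false
set_option linter.unusedSectionVars false

namespace Fermat.Agent.S13

open Polynomial WeierstrassCurve Fermat.Agent.S05

section Lead

variable {R : Type*} [CommRing R]

/-- `P` has degree at most `d` and its coefficient at `d` is `c`. -/
def IsLead (P : R[X]) (d : ℕ) (c : R) : Prop := P.natDegree ≤ d ∧ P.coeff d = c

variable {P Q : R[X]} {d e : ℕ} {c c' : R}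

lemma IsLead.mul (hP : IsLead P d c) (hQ : IsLead Q e c') : IsLead (P * Q) (d + e) (c * c') :=
  ⟨natDegree_mul_le_of_le hP.1 hQ.1, by
    rw [coeff_mul_add_eq_of_natDegree_le hP.1 hQ.1, hP.2, hQ.2]⟩

lemma IsLead.add (hP : IsLead P d c) (hQ : IsLead Q d c') : IsLead (P + Q) d (c + c') :=
  ⟨natDegree_add_le_of_degree_le hP.1 hQ.1, by rw [coeff_add, hP.2, hQ.2]⟩

lemma IsLead.sub (hP : IsLead P d c) (hQ : IsLead Q d c') : IsLead (P - Q) d (c - c') :=
  ⟨(natDegree_sub_le_of_le hP.1 hQ.1).trans (by simp), by rw [coeff_sub, hP.2, hQ.2]⟩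

lemma IsLead.C_mul (a : R) (hP : IsLead P d c) : IsLead (C a * P) d (a * c) :=
  ⟨(natDegree_C_mul_le a P).trans hP.1, by rw [coeff_C_mul, hP.2]⟩

lemma IsLead.mono (hP : IsLead P e c) (h : e < d) : IsLead P d 0 :=
  ⟨hP.1.trans h.le, coeff_eq_zero_of_natDegree_lt (lt_of_le_of_lt hP.1 h)⟩

lemma IsLead.congr {d' : ℕ} {c'' : R} (hP : IsLead P d c) (hd : d = d') (hc : c = c'') :
    IsLead P d' c'' := by
  subst hd; subst hc; exact hP

lemma isLead_one : IsLead (1 : R[X]) 0 1 := ⟨by simp, by simp⟩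

lemma isLead_zero (d : ℕ) : IsLead (0 : R[X]) d 0 := ⟨by simp, by simp⟩

lemma isLead_X : IsLead (X : R[X]) 1 1 := ⟨natDegree_X_le, by simp⟩

lemma IsLead.pow (hP : IsLead P d c) (k : ℕ) : IsLead (P ^ k) (k * d) (c ^ k) := by
  induction k with
  | zero => simpa using isLead_one
  | succ k ih =>
    rw [pow_succ, pow_succ]
    exact (ih.mul hP).congr (by ring) rfl

lemma isLead_X_pow (k : ℕ) : IsLead (X ^ k : R[X]) k 1 :=
  (isLead_X.pow k).congr (by ring) (by simp)

lemma IsLead.natCast_mul (a : ℕ) (hP : IsLead P d c) : IsLead ((a : R[X]) * P) d (a * c) := by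
  have := hP.C_mul (a : R)
  rwa [map_natCast] at this

lemma IsLead.of_X_pow_mul (k : ℕ) (h : IsLead (X ^ k * P) (d + k) c) : IsLead P d c := by
  refine ⟨?_, ?_⟩
  · rw [natDegree_le_iff_coeff_eq_zero]
    intro N hN
    have := (natDegree_le_iff_coeff_eq_zero.mp h.1) (N + k) (by omega)
    rwa [coeff_X_pow_mul] at this
  · have := h.2
    rwa [coeff_X_pow_mul] at this

lemma IsLead.of_X_mul (h : IsLead (X * P) (d + 1) c) : IsLead P d c := by
  apply IsLead.of_X_pow_mul 1
  rwa [pow_one]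

end Lead

section Defs

variable {R : Type*} [CommRing R] (W : WeierstrassCurve R)

/-- polynomial versions of the three quadratic forms of the add-sub map. -/
noncomputable def ladS (s t u : R[X]) : R[X] :=
  s ^ 2 - C W.b₄ * s * u - C W.b₆ * t * u - C W.b₈ * u ^ 2
noncomputable def ladT (s t u : R[X]) : R[X] :=
  2 * t * s + C W.b₂ * s * u + C W.b₄ * t * u + C W.b₆ * u ^ 2
noncomputable def ladU (s t u : R[X]) : R[X] := t ^ 2 - 4 * s * u

/-- doubling. -/
noncomputable def ladDbl (p : R[X] × R[X]) : R[X] × R[X] :=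
  (ladS W (p.1 * p.1) (p.1 * p.2 + p.2 * p.1) (p.2 * p.2),
    ladT W (p.1 * p.1) (p.1 * p.2 + p.2 * p.1) (p.2 * p.2))

/-- differential addition (the difference being the base point `(X : 1)`). -/
noncomputable def ladAdd (p' p : R[X] × R[X]) : R[X] × R[X] :=
  (ladT W (p'.1 * p.1) (p'.1 * p.2 + p'.2 * p.1) (p'.2 * p.2)
      - X * ladU (p'.1 * p.1) (p'.1 * p.2 + p'.2 * p.1) (p'.2 * p.2),
    ladU (p'.1 * p.1) (p'.1 * p.2 + p'.2 * p.1) (p'.2 * p.2))

/-- `lad W n = (A_n, B_n)` with `x(nP) = A_n(x) : B_n(x)`. -/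
noncomputable def lad : ℕ → R[X] × R[X]
  | 0 => (1, 0)
  | 1 => (X, 1)
  | (n + 2) =>
    if n % 2 = 0 then ladDbl W (lad (n / 2 + 1))
    else ladAdd W (lad (n / 2 + 2)) (lad (n / 2 + 1))
  decreasing_by all_goals omega

lemma lad_zero : lad W 0 = (1, 0) := by rw [lad]

lemma lad_one : lad W 1 = (X, 1) := by rw [lad]

lemma lad_two_mul (n : ℕ) : lad W (2 * n) = ladDbl W (lad W n) := by
  rcases n with _ | n
  · simp [lad_zero, ladDbl, ladS, ladT]
  · have h : 2 * (n + 1) = 2 * n + 2 := by ring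
    rw [h, lad, if_pos (by omega)]
    congr 2
    omega

lemma lad_two_mul_add_one (n : ℕ) :
    lad W (2 * n + 1) = ladAdd W (lad W (n + 1)) (lad W n) := by
  rcases n with _ | n
  · simp only [mul_zero, zero_add, lad_zero, lad_one, ladAdd, ladT, ladU]
    ext1
    · simp only; ring
    · simp only; ring
  · have h : 2 * (n + 1) + 1 = (2 * n + 1) + 2 := by ring
    rw [h, lad, if_neg (by omega)]
    have h1 : (2 * n + 1) / 2 + 2 = n + 1 + 1 := by omega
    have h2 : (2 * n + 1) / 2 + 1 = n + 1 := by omega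
    rw [h1, h2]

theorem lad_induction {p : ℕ → Prop} (h0 : p 0) (h1 : p 1) (hd : ∀ n, p n → p (2 * n))
    (ha : ∀ n, p n → p (n + 1) → p (2 * n + 1)) : ∀ n, p n := by
  intro n
  induction n using Nat.strong_induction_on with
  | _ n ih =>
    rcases n with _ | _ | n
    · exact h0
    · exact h1
    · rcases Nat.even_or_odd' (n + 2) with ⟨k, hk | hk⟩
      · rw [hk]; exact hd k (ih k (by omega))
      · rw [hk]; exact ha k (ih k (by omega)) (ih (k + 1) (by omega))

end Defs

/-- `torsPoly W m` : a polynomial of degree `2m²+2m = ((2m+1)²-1)/2` with leading coefficient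
`2m+1` whose roots are the `x`-coordinates of the nonzero `(2m+1)`-torsion points. -/
noncomputable def torsPoly {R : Type*} [CommRing R] (W : WeierstrassCurve R) (m : ℕ) : R[X] :=
  (lad W m).1 * (lad W (m + 1)).2 - (lad W (m + 1)).1 * (lad W m).2

section Map

variable {R S : Type*} [CommRing R] [CommRing S] (f : R →+* S) (W : WeierstrassCurve R)

lemma lad_map (n : ℕ) :
    lad (W.map f) n = ((lad W n).1.map f, (lad W n).2.map f) := by
  induction n using lad_induction with
  | h0 => simp [lad_zero]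
  | h1 => simp [lad_one]
  | hd n ih =>
    rw [lad_two_mul, lad_two_mul, ih]
    simp [ladDbl, ladS, ladT, Polynomial.map_ofNat]
  | ha n ih ih' =>
    rw [lad_two_mul_add_one, lad_two_mul_add_one, ih, ih']
    simp [ladAdd, ladU, ladT, Polynomial.map_ofNat]

end Map

theorem torsPoly_map {R S : Type*} [CommRing R] [CommRing S] (f : R →+* S)
    (W : WeierstrassCurve R) (m : ℕ) : torsPoly (W.map f) m = (torsPoly W m).map f := by
  simp [torsPoly, lad_map]

section Degree

variable {R : Type*} [CommRing R] (W : WeierstrassCurve R)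

lemma lad_isLead (n : ℕ) : IsLead (lad W n).1 (n ^ 2) 1 ∧
    IsLead (X * (lad W n).2) (n ^ 2) ((n : R) ^ 2) := by
  induction n using lad_induction with
  | h0 => simp only [lad_zero]; exact ⟨by simpa using isLead_one, by simpa using isLead_zero 0⟩
  | h1 => simp only [lad_one]; exact ⟨by simpa using isLead_X, by simpa using isLead_X⟩
  | hd n ih =>
    obtain ⟨hA, hB⟩ := ih
    rw [lad_two_mul]
    set A := (lad W n).1
    set B := (lad W n).2
    set Bx := X * B with hBx
    have hX := isLead_X_pow (R := R)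
    constructor
    · apply IsLead.of_X_pow_mul 4
      have key : X ^ 4 * (ladDbl W (A, B)).1 = X ^ 4 * A ^ 4 - C W.b₄ * (X ^ 2 * A ^ 2 * Bx ^ 2)
          - C W.b₆ * (2 * (X * A * Bx ^ 3)) - C W.b₈ * Bx ^ 4 := by
        simp only [ladDbl, ladS, hBx]; ring
      rw [key]
      have t1 := (hX 4).mul (hA.pow 4)
      have t2 := (((hX 2).mul (hA.pow 2)).mul (hB.pow 2)).mono
        (d := 4 + 4 * n ^ 2) (by omega)
      have t3 := (((isLead_X.mul hA).mul (hB.pow 3)).natCast_mul 2).mono
        (d := 4 + 4 * n ^ 2) (by omega)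
      have t4 := (hB.pow 4).mono (d := 4 + 4 * n ^ 2) (by omega)
      exact (((t1.sub (t2.C_mul _)).sub (t3.C_mul _)).sub (t4.C_mul _)).congr (by ring) (by simp)
    · apply IsLead.of_X_pow_mul 4
      have key : X ^ 4 * (X * (ladDbl W (A, B)).2) = 4 * (X ^ 4 * A ^ 3 * Bx)
          + C W.b₂ * (X ^ 3 * A ^ 2 * Bx ^ 2) + C W.b₄ * (2 * (X ^ 2 * A * Bx ^ 3))
          + C W.b₆ * (X * Bx ^ 4) := by
        simp only [ladDbl, ladT, hBx]; ring
      rw [key]
      have t1 := (((hX 4).mul (hA.pow 3)).mul hB).natCast_mul 4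
      have t2 := (((hX 3).mul (hA.pow 2)).mul (hB.pow 2)).mono
        (d := 4 + 3 * n ^ 2 + n ^ 2) (by omega)
      have t3 := ((((hX 2).mul hA).mul (hB.pow 3)).natCast_mul 2).mono
        (d := 4 + 3 * n ^ 2 + n ^ 2) (by omega)
      have t4 := (isLead_X.mul (hB.pow 4)).mono (d := 4 + 3 * n ^ 2 + n ^ 2) (by omega)
      exact (((t1.add (t2.C_mul _)).add (t3.C_mul _)).add (t4.C_mul _)).congr (by ring)
        (by push_cast; ring)
  | ha n ih ih' =>
    obtain ⟨hA, hB⟩ := ih
    obtain ⟨hA', hB'⟩ := ih'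
    rw [lad_two_mul_add_one]
    set A := (lad W n).1
    set B := (lad W n).2
    set A' := (lad W (n + 1)).1
    set B' := (lad W (n + 1)).2
    set Bx := X * B with hBx
    set Bx' := X * B' with hBx'
    have hX := isLead_X_pow (R := R)
    -- `s`, `X t`, `X² u`
    have hs := hA'.mul hA
    have ht := (hA'.mul hB).add ((hB'.mul hA))
    have hu := hB'.mul hB
    constructor
    · apply IsLead.of_X_pow_mul 4
      have key : X ^ 4 * (ladAdd W (A', B') (A, B)).1 =
          2 * (X ^ 3 * ((A' * Bx + Bx' * A) * (A' * A)))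
          + C W.b₂ * (X ^ 2 * ((A' * A) * (Bx' * Bx)))
          + C W.b₄ * (X * ((A' * Bx + Bx' * A) * (Bx' * Bx)))
          + C W.b₆ * ((Bx' * Bx) ^ 2)
          - X ^ 3 * (A' * Bx + Bx' * A) ^ 2 + 4 * (X ^ 3 * ((A' * A) * (Bx' * Bx))) := by
        simp only [ladAdd, ladT, ladU, hBx, hBx']; ring
      rw [key]
      have t1 := ((hX 3).mul (ht.mul hs)).natCast_mul 2
      have t2 := ((hX 2).mul (hs.mul hu)).mono
        (d := 3 + ((n + 1) ^ 2 + n ^ 2 + ((n + 1) ^ 2 + n ^ 2))) (by omega)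
      have t3 := (isLead_X.mul (ht.mul hu)).mono
        (d := 3 + ((n + 1) ^ 2 + n ^ 2 + ((n + 1) ^ 2 + n ^ 2))) (by omega)
      have t4 := (hu.pow 2).mono
        (d := 3 + ((n + 1) ^ 2 + n ^ 2 + ((n + 1) ^ 2 + n ^ 2))) (by omega)
      have t5 := ((hX 3).mul (ht.pow 2)).congr
        (d' := 3 + ((n + 1) ^ 2 + n ^ 2 + ((n + 1) ^ 2 + n ^ 2))) (by ring) rfl
      have t6 := ((hX 3).mul (hs.mul hu)).natCast_mul 4
      exact (((((t1.add (t2.C_mul _)).add (t3.C_mul _)).add (t4.C_mul _)).sub t5).add t6).congr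
        (by ring) (by push_cast; ring)
    · apply IsLead.of_X_mul
      have key : X * (X * (ladAdd W (A', B') (A, B)).2) = (A' * Bx - Bx' * A) ^ 2 := by
        simp only [ladAdd, ladU, hBx, hBx']; ring
      rw [key]
      exact (((hA'.mul hB).sub (hB'.mul hA)).pow 2).congr (by ring) (by push_cast; ring)

lemma torsPoly_isLead (m : ℕ) :
    IsLead (torsPoly W m) (2 * m ^ 2 + 2 * m) ((2 * m + 1 : ℕ) : R) := by
  obtain ⟨hA, hB⟩ := lad_isLead W m
  obtain ⟨hA', hB'⟩ := lad_isLead W (m + 1)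
  apply IsLead.of_X_mul
  have key : X * torsPoly W m = (lad W m).1 * (X * (lad W (m + 1)).2)
      - (X * (lad W m).2) * (lad W (m + 1)).1 := by
    simp only [torsPoly]; ring
  rw [key]
  exact ((hA.mul hB').sub (hB.mul hA')).congr (by ring) (by push_cast; ring)

end Degree

theorem torsPoly_natDegree_le {R : Type*} [CommRing R] (W : WeierstrassCurve R) (m : ℕ) :
    (torsPoly W m).natDegree ≤ 2 * m ^ 2 + 2 * m :=
  (torsPoly_isLead W m).1

theorem torsPoly_coeff {R : Type*} [CommRing R] (W : WeierstrassCurve R) (m : ℕ) :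
    (torsPoly W m).coeff (2 * m ^ 2 + 2 * m) = ((2 * m + 1 : ℕ) : R) :=
  (torsPoly_isLead W m).2

section Link

variable {F : Type*} [Field F] [DecidableEq F] (W : Affine F)

lemma eval_ladS (x : F) (s t u : F[X]) :
    (ladS W s t u).eval x = asS W (s.eval x) (t.eval x) (u.eval x) := by
  simp [ladS, asS]

lemma eval_ladT (x : F) (s t u : F[X]) :
    (ladT W s t u).eval x = asT W (s.eval x) (t.eval x) (u.eval x) := by
  simp [ladT, asT]

lemma eval_ladU (x : F) (s t u : F[X]) :
    (ladU s t u).eval x = asU (s.eval x) (t.eval x) (u.eval x) := by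
  simp [ladU, asU]

lemma asS_smul (k s t u : F) : asS W (k * s) (k * t) (k * u) = k ^ 2 * asS W s t u := by
  simp only [asS]; ring

lemma asT_smul (k s t u : F) : asT W (k * s) (k * t) (k * u) = k ^ 2 * asT W s t u := by
  simp only [asT]; ring

lemma asU_smul (k s t u : F) : asU (k * s) (k * t) (k * u) = k ^ 2 * asU s t u := by
  simp only [asU]; ring

/-- the ladder polynomials compute the projective `x`-coordinate of `n • P`. -/
theorem lad_eval {x y : F} (h : W.Nonsingular x y) (n : ℕ) : ∃ c : F, c ≠ 0 ∧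
    (lad W n).1.eval x = c * pX (n • Affine.Point.some x y h) ∧
    (lad W n).2.eval x = c * pZ (n • Affine.Point.some x y h) := by
  induction n using lad_induction with
  | h0 => exact ⟨1, one_ne_zero, by simp [lad_zero], by simp [lad_zero]⟩
  | h1 => exact ⟨1, one_ne_zero, by simp [lad_one], by simp [lad_one]⟩
  | hd n ih =>
    obtain ⟨c, hc, hA, hB⟩ := ih
    set P := Affine.Point.some x y h
    obtain ⟨c₁, hc₁, hS, hT, -⟩ := addSub (n • P) (n • P)
    rw [sub_self, ← two_nsmul, ← mul_nsmul'] at hS hT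
    simp only [pX_zero, pZ_zero, mul_one, mul_zero, zero_add] at hS hT
    refine ⟨c ^ 4 / c₁, div_ne_zero (pow_ne_zero 4 hc) hc₁, ?_, ?_⟩
    · rw [lad_two_mul]
      simp only [ladDbl, eval_ladS, eval_mul, eval_add, hA, hB]
      rw [hS]
      have : asS W (c * pX (n • P) * (c * pX (n • P)))
          (c * pX (n • P) * (c * pZ (n • P)) + c * pZ (n • P) * (c * pX (n • P)))
          (c * pZ (n • P) * (c * pZ (n • P))) = (c ^ 2) ^ 2 * asS W (pX (n • P) * pX (n • P))
          (pX (n • P) * pZ (n • P) + pZ (n • P) * pX (n • P)) (pZ (n • P) * pZ (n • P)) := by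
        rw [← asS_smul]; congr 1 <;> ring
      rw [this]
      field_simp
    · rw [lad_two_mul]
      simp only [ladDbl, eval_ladT, eval_mul, eval_add, hA, hB]
      rw [hT]
      have : asT W (c * pX (n • P) * (c * pX (n • P)))
          (c * pX (n • P) * (c * pZ (n • P)) + c * pZ (n • P) * (c * pX (n • P)))
          (c * pZ (n • P) * (c * pZ (n • P))) = (c ^ 2) ^ 2 * asT W (pX (n • P) * pX (n • P))
          (pX (n • P) * pZ (n • P) + pZ (n • P) * pX (n • P)) (pZ (n • P) * pZ (n • P)) := by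
        rw [← asT_smul]; congr 1 <;> ring
      rw [this]
      field_simp
  | ha n ih ih' =>
    obtain ⟨c, hc, hA, hB⟩ := ih
    obtain ⟨c', hc', hA', hB'⟩ := ih'
    set P := Affine.Point.some x y h with hP
    obtain ⟨c₁, hc₁, -, hT, hU⟩ := addSub ((n + 1) • P) (n • P)
    have e1 : (n + 1) • P + n • P = (2 * n + 1) • P := by
      rw [← add_nsmul]; congr 1; ring
    have e2 : (n + 1) • P - n • P = P := by
      rw [succ_nsmul]; abel
    rw [e1, e2] at hT hU
    have hPX : pX P = x := rfl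
    have hPZ : pZ P = 1 := rfl
    rw [hPX, hPZ, mul_one] at hT
    rw [hPZ, mul_one] at hU
    have kT : asT W (c' * pX ((n + 1) • P) * (c * pX (n • P)))
        (c' * pX ((n + 1) • P) * (c * pZ (n • P)) + c' * pZ ((n + 1) • P) * (c * pX (n • P)))
        (c' * pZ ((n + 1) • P) * (c * pZ (n • P))) = (c' * c) ^ 2 *
        asT W (pX ((n + 1) • P) * pX (n • P))
        (pX ((n + 1) • P) * pZ (n • P) + pZ ((n + 1) • P) * pX (n • P))
        (pZ ((n + 1) • P) * pZ (n • P)) := by
      rw [← asT_smul]; congr 1 <;> ring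
    have kU : asU (c' * pX ((n + 1) • P) * (c * pX (n • P)))
        (c' * pX ((n + 1) • P) * (c * pZ (n • P)) + c' * pZ ((n + 1) • P) * (c * pX (n • P)))
        (c' * pZ ((n + 1) • P) * (c * pZ (n • P))) = (c' * c) ^ 2 *
        asU (pX ((n + 1) • P) * pX (n • P))
        (pX ((n + 1) • P) * pZ (n • P) + pZ ((n + 1) • P) * pX (n • P))
        (pZ ((n + 1) • P) * pZ (n • P)) := by
      rw [← asU_smul]; congr 1 <;> ring
    refine ⟨(c' * c) ^ 2 / c₁, div_ne_zero (pow_ne_zero 2 (mul_ne_zero hc' hc)) hc₁, ?_, ?_⟩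
    · rw [lad_two_mul_add_one]
      simp only [ladAdd, eval_sub, eval_mul, eval_X, eval_ladT, eval_ladU, eval_add,
        hA, hB, hA', hB']
      rw [kT, kU]
      generalize asT W (pX ((n + 1) • P) * pX (n • P))
        (pX ((n + 1) • P) * pZ (n • P) + pZ ((n + 1) • P) * pX (n • P))
        (pZ ((n + 1) • P) * pZ (n • P)) = TT at hT ⊢
      generalize asU (pX ((n + 1) • P) * pX (n • P))
        (pX ((n + 1) • P) * pZ (n • P) + pZ ((n + 1) • P) * pX (n • P))
        (pZ ((n + 1) • P) * pZ (n • P)) = UU at hU ⊢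
      have : pX ((2 * n + 1) • P) = c₁ * TT - x * (c₁ * UU) := by
        rw [← hT, ← hU]; ring
      rw [this]
      field_simp
    · rw [lad_two_mul_add_one]
      simp only [ladAdd, eval_mul, eval_ladU, eval_add, hA, hB, hA', hB']
      rw [kU, hU]
      field_simp

end Link

theorem torsPoly_eval_eq_zero_iff {F : Type*} [Field F] [DecidableEq F] (W : Affine F) (m : ℕ)
    {x y : F} (h : W.Nonsingular x y) :
    (torsPoly W m).eval x = 0 ↔ (2 * m + 1) • (Affine.Point.some x y h) = 0 := by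
  obtain ⟨c, hc, -, hB⟩ := lad_eval W h (2 * m + 1)
  rw [← pZ_eq_zero_iff]
  have key : (lad W (2 * m + 1)).2 = (torsPoly W m) ^ 2 := by
    rw [lad_two_mul_add_one]
    simp only [ladAdd, ladU, torsPoly]; ring
  rw [key, eval_pow] at hB
  constructor
  · intro h0
    rw [h0] at hB
    have : c * pZ ((2 * m + 1) • Affine.Point.some x y h) = 0 := by rw [← hB]; ring
    exact (mul_eq_zero.mp this).resolve_left hc
  · intro h0
    rw [h0, mul_zero] at hB
    exact pow_eq_zero_iff (two_ne_zero) |>.mp hB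

end Fermat.Agent.S13
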