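import Fermat.Agent.S05.Frey
import Fermat.Agent.S05.XOnly

/-!
# S13, piece L: local analysis at a node (any residue characteristic)
-/

set_option autoImplicit false
set_option linter.unusedSectionVars false

universe u

namespace Fermat.Agent.S13

open WeierstrassCurve WeierstrassCurve.Affine Fermat.Agent.S05

variable {K : Type u} [Field K] [DecidableEq K] [CharZero K]
variable {V : QVal K} {W : Affine K}

lemma inE1_iff {e : K} (he : V.GE 0 e) (P : W.Point) : InE1 V e P ↔ InE1 V 0 P := by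
  rcases P with _ | ⟨x, y, h⟩
  · exact ⟨fun _ => Or.inl rfl, fun _ => Or.inl rfl⟩
  · unfold InE1
    simp only [xi_some, sub_zero]
    constructor
    · rintro (h1 | h1)
      · exact Or.inl h1
      · exact Or.inr fun hx => h1 (hx.sub he)
    · rintro (h1 | h1)
      · exact Or.inl h1
      · exact Or.inr fun hx => h1 (by simpa using hx.add he)

/-- **L1**: the kernel of reduction is closed under addition (only the `b`-invariants need to be
integral). -/
theorem inE1_add (hb₂ : V.GE 0 W.b₂) (hb₄ : V.GE 0 W.b₄) (hb₆ : V.GE 0 W.b₆) (hb₈ : V.GE 0 W.b₈)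
    {P Q : W.Point} (hP : InE1 V 0 P) (hQ : InE1 V 0 Q) : InE1 V 0 (P + Q) := by
  by_cases hP0 : P = 0
  · subst hP0; simpa using hQ
  by_cases hQ0 : Q = 0
  · subst hQ0; simpa using hP
  by_contra hcon
  obtain ⟨c, hc, hS, hT, hU⟩ := addSub P Q
  rcases P with _ | ⟨x1, y1, h1⟩
  · exact hP0 rfl
  rcases Q with _ | ⟨x2, y2, h2⟩
  · exact hQ0 rfl
  have hp := hP.resolve_left hP0
  have hq := hQ.resolve_left hQ0
  simp only [xi_some, sub_zero] at hp hq
  obtain ⟨hp0, hp⟩ := QVal.not_GE_iff.mp hp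
  obtain ⟨hq0, hq⟩ := QVal.not_GE_iff.mp hq
  simp only [pX_some, pZ_some, mul_one, one_mul] at hS hT hU
  unfold InE1 at hcon
  rw [not_or, not_not] at hcon
  obtain ⟨hR0, hR⟩ := hcon
  generalize Point.some x1 y1 h1 + Point.some x2 y2 h2 = R at hS hT hU hR0 hR
  generalize Point.some x1 y1 h1 - Point.some x2 y2 h2 = R' at hS hT hU
  rcases R with _ | ⟨x, y, h⟩
  · exact hR0 rfl
  simp only [xi_some, sub_zero] at hR
  simp only [pX_some, pZ_some, one_mul] at hS hT hU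
  set a := V.w x1
  set b := V.w x2
  have E1 : V.EQ a x1 := ⟨hp0, rfl⟩
  have E2 : V.EQ b x2 := ⟨hq0, rfl⟩
  have hmin1 : min a b ≤ a := min_le_left a b
  have hmin2 : min a b ≤ b := min_le_right a b
  have hab : a + b < min a b := by
    rcases min_choice a b with h | h <;> rw [h] <;> linarith
  have Gt : V.GE (min a b) (x1 + x2) := (E1.ge hmin1).add (E2.ge hmin2)
  have Es : V.EQ (a + b) (x1 * x2) := E1.mul E2
  have G2 : V.GE 0 (2 : K) := QVal.GE.ofNat 2
  have G4 : V.GE 0 (4 : K) := QVal.GE.ofNat 4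
  have ES : V.EQ (2 * (a + b)) (asS W (x1 * x2) (x1 + x2) 1) := by
    unfold asS
    refine QVal.EQ.sub_gt (QVal.EQ.sub_gt (QVal.EQ.sub_gt Es.sq ?_) ?_) ?_
    · exact ((hb₄.mul Es.ge').mul QVal.EQ.one.ge').gt (by linarith)
    · exact ((hb₆.mul Gt).mul QVal.EQ.one.ge').gt (by linarith)
    · exact (hb₈.mul (QVal.EQ.one.ge'.pow 2)).gt (by linarith)
  have GT : V.GT (2 * (a + b)) (asT W (x1 * x2) (x1 + x2) 1) := by
    unfold asT
    refine QVal.GT.add (QVal.GT.add (QVal.GT.add ?_ ?_) ?_) ?_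
    · exact ((G2.mul Gt).mul Es.ge').gt (by linarith)
    · exact ((hb₂.mul Es.ge').mul QVal.EQ.one.ge').gt (by linarith)
    · exact ((hb₄.mul Gt).mul QVal.EQ.one.ge').gt (by linarith)
    · exact (hb₆.mul (QVal.EQ.one.ge'.pow 2)).gt (by linarith)
  have GU : V.GT (2 * (a + b)) (asU (x1 * x2) (x1 + x2) 1) := by
    unfold asU
    refine QVal.GT.sub ?_ ?_
    · exact Gt.sq.gt (by linarith)
    · exact ((G4.mul Es.ge').mul QVal.EQ.one.ge').gt (by linarith)
  have key : asS W (x1 * x2) (x1 + x2) 1 =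
      x * (asT W (x1 * x2) (x1 + x2) 1 - x * asU (x1 * x2) (x1 + x2) 1) := by
    apply mul_left_cancel₀ hc
    linear_combination -hS + x * hT - x ^ 2 * hU
  have : V.GT (2 * (a + b)) (asS W (x1 * x2) (x1 + x2) 1) := by
    rw [key]
    simpa using hR.mul_gt (GT.sub (by simpa using hR.mul_gt GU))
  exact ES.not_gt le_rfl this

lemma inE1_sub (hb₂ : V.GE 0 W.b₂) (hb₄ : V.GE 0 W.b₄) (hb₆ : V.GE 0 W.b₆) (hb₈ : V.GE 0 W.b₈)
    {P Q : W.Point} (hP : InE1 V 0 P) (hQ : InE1 V 0 Q) : InE1 V 0 (P - Q) := by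
  rw [sub_eq_add_neg]; exact inE1_add hb₂ hb₄ hb₆ hb₈ hP hQ.neg

/-- integrality of the `b`-invariants. -/
lemma b_GE (a1 : V.GE 0 W.a₁) (a2 : V.GE 0 W.a₂) (a3 : V.GE 0 W.a₃) (a4 : V.GE 0 W.a₄)
    (a6 : V.GE 0 W.a₆) : V.GE 0 W.b₂ ∧ V.GE 0 W.b₄ ∧ V.GE 0 W.b₆ ∧ V.GE 0 W.b₈ := by
  have G2 : V.GE 0 (2 : K) := QVal.GE.ofNat 2
  have G4 : V.GE 0 (4 : K) := QVal.GE.ofNat 4
  have m : ∀ {x y : K}, V.GE 0 x → V.GE 0 y → V.GE 0 (x * y) := fun hx hy => by
    simpa using hx.mul hy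
  simp only [WeierstrassCurve.b₂, WeierstrassCurve.b₄, WeierstrassCurve.b₆, WeierstrassCurve.b₈]
  refine ⟨?_, ?_, ?_, ?_⟩
  · exact (a1.pow 2).add (m G4 a2)
  · exact (m G2 a4).add (m a1 a3)
  · exact (a3.pow 2).add (m G4 a6)
  · exact ((((m (a1.pow 2) a6).add (m (m G4 a2) a6)).sub (m (m a1 a3) a4)).add
      (m a2 (a3.pow 2))).sub (a4.pow 2)

/-- The data of an integral Weierstrass curve with a rational two-torsion point `(e, t)` reducing
to a node, together with an automorphism acting trivially on the residue field. -/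
structure NodeCtx (V : QVal K) (W : Affine K) (e t β : K) (δ : ℚ) (σ : K →+* K)
    (Φ : W.Point →+ W.Point) : Prop where
  a1 : V.GE 0 W.a₁
  a2 : V.GE 0 W.a₂
  a3 : V.GE 0 W.a₃
  a4 : V.GE 0 W.a₄
  a6 : V.GE 0 W.a₆
  he : V.GE 0 e
  h3 : 2 * t + W.a₁ * e + W.a₃ = 0
  hns : W.Nonsingular e t
  hβ : β = 3 * e ^ 2 + 2 * W.a₂ * e + W.a₄ - W.a₁ * t
  Eβ : V.EQ δ β
  hδ : 0 < δ
  Eb2 : V.EQ 0 (W.b₂ + 12 * e)
  σw : ∀ x : K, x ≠ 0 → V.w (σ x) = V.w x
  σm : ∀ x : K, V.GE 0 x → V.GT 0 (σ x - x)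
  σe : σ e = e
  σt : σ t = t
  Φsome : ∀ (x y : K) (h : W.Nonsingular x y), ∃ h', Φ (.some x y h) = .some (σ x) (σ y) h'

namespace NodeCtx

variable {e t β : K} {δ : ℚ} {σ : K →+* K} {Φ : W.Point →+ W.Point}
variable (C : NodeCtx V W e t β δ σ Φ)
include C

/-- the equation in the shifted coordinates. -/
lemma shift_eq {x y : K} (h : W.Equation x y) :
    (y - t) ^ 2 + W.a₁ * (x - e) * (y - t) =
      (x - e) ^ 3 + (W.a₂ + 3 * e) * (x - e) ^ 2 + β * (x - e) := by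
  have h1 := (equation_iff x y).mp h
  have h2 := (equation_iff e t).mp C.hns.1
  rw [C.hβ]
  linear_combination h1 - h2 - (y - t) * C.h3

lemma slope_eq {x y : K} (h : W.Equation x y) (hX : x - e ≠ 0) :
    ((y - t) / (x - e)) ^ 2 + W.a₁ * ((y - t) / (x - e)) =
      (x - e) + (W.a₂ + 3 * e) + β / (x - e) := by
  have := C.shift_eq h
  field_simp
  linear_combination this

lemma a2' : V.GE 0 (W.a₂ + 3 * e) := by
  have G3 : V.GE 0 (3 : K) := QVal.GE.ofNat 3
  exact C.a2.add (by simpa using G3.mul C.he)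

/-- integrality of the slope from the node. -/
lemma slope_GE {x y : K} (h : W.Equation x y) {d : ℚ} (hd0 : 0 ≤ d) (hdδ : d ≤ δ)
    (EX : V.EQ d (x - e)) : V.GE 0 ((y - t) / (x - e)) := by
  have h1 := C.slope_eq h EX.1
  set s := (y - t) / (x - e)
  have R : V.GE 0 ((x - e) + (W.a₂ + 3 * e) + β / (x - e)) :=
    ((EX.ge hd0).add C.a2').add ((C.Eβ.div EX).ge (by linarith))
  by_contra hs
  obtain ⟨hs0, hsw⟩ := QVal.not_GE_iff.mp hs
  have Es : V.EQ (V.w s) s := QVal.EQ.mk' hs0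
  have L : V.EQ (2 * V.w s) (s ^ 2 + W.a₁ * s) :=
    Es.sq.add_gt ((C.a1.mul Es.ge').gt (by linarith))
  rw [h1] at L
  exact L.not_ge (by linarith) R

lemma two_slope_EQ {x y : K} (h : W.Equation x y) {d : ℚ} (hd0 : 0 < d) (hdδ : d < δ)
    (EX : V.EQ d (x - e)) : V.EQ 0 (2 * ((y - t) / (x - e)) + W.a₁) := by
  have h1 := C.slope_eq h EX.1
  set s := (y - t) / (x - e)
  have G4 : V.GE 0 (4 : K) := QVal.GE.ofNat 4
  apply QVal.EQ.of_sq
  have : (2 * s + W.a₁) ^ 2 = (W.b₂ + 12 * e) + 4 * ((x - e) + β / (x - e)) := by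
    simp only [WeierstrassCurve.b₂]
    linear_combination 4 * h1
  rw [this]
  have G : V.GT 0 ((x - e) + β / (x - e)) :=
    (EX.gt hd0).add ((C.Eβ.div EX).gt (by linarith))
  simpa using C.Eb2.add_gt (by simpa using G4.mul_gt G)

/-- two points on the same non-identity component with congruent slopes: the difference lies on
the identity component. -/
lemma node_sub {x y x' y' : K} (h : W.Nonsingular x y) (h' : W.Nonsingular x' y') {d : ℚ}
    (hd0 : 0 < d) (hdδ : d < δ) (EX : V.EQ d (x - e)) (EX' : V.EQ d (x' - e))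
    (hs : V.GT 0 ((y' - t) / (x' - e) - (y - t) / (x - e))) :
    Point.some x' y' h' - Point.some x y h = 0 ∨
      ¬ V.GT 0 (xi e (Point.some x' y' h' - Point.some x y h)) := by
  have Eu := C.two_slope_EQ h.1 hd0 hdδ EX
  have h1 := C.slope_eq h.1 EX.1
  have hY : y - t = (y - t) / (x - e) * (x - e) := by rw [div_mul_cancel₀ _ EX.1]
  have hY' : y' - t = (y' - t) / (x' - e) * (x' - e) := by rw [div_mul_cancel₀ _ EX'.1]
  generalize (y - t) / (x - e) = s at Eu h1 hY hs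
  generalize (y' - t) / (x' - e) = s' at hY' hs
  rw [sub_eq_add_neg, Point.neg_some]
  by_cases hxe : x' = x
  · subst hxe
    rcases Y_eq_of_X_eq h'.1 h.1 rfl with hy | hy
    · left
      subst hy
      exact Point.add_of_Y_eq rfl (by rw [negY_negY])
    · exfalso
      have h2 : y' - t = -(y - t) - W.a₁ * (x' - e) := by
        rw [hy]; simp only [negY]; linear_combination -C.h3
      have h3 : s' - s = -(2 * s + W.a₁) := by
        apply mul_right_cancel₀ EX.1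
        linear_combination -hY' + h2 - hY
      rw [h3] at hs
      exact Eu.neg.not_gt le_rfl hs
  · right
    rw [Point.add_of_X_ne hxe, xi_some, slope_of_X_ne hxe]
    have hD : x' - x ≠ 0 := sub_ne_zero.mpr hxe
    have ED : V.EQ (V.w (x' - x)) (x' - x) := QVal.EQ.mk' hD
    have hd' : d ≤ V.w (x' - x) := by
      have e0 : x' - x = (x' - e) - (x - e) := by ring
      have G : V.GE d (x' - x) := by rw [e0]; exact EX'.ge'.sub EX.ge'
      exact G.le_w hD
    have hnum : y' - W.negY x y = s' * (x' - e) + (s + W.a₁) * (x - e) := by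
      simp only [negY]; linear_combination hY' + hY + C.h3
    rw [hnum]
    set l := (s' * (x' - e) + (s + W.a₁) * (x - e)) / (x' - x) with hl
    have e1 : l + s + W.a₁ = (2 * s + W.a₁ + (s' - s)) * (x' - e) / (x' - x) := by
      rw [hl]; field_simp; ring
    have e2 : l - s = ((s' - s) * (x' - e) + (2 * s + W.a₁) * (x - e)) / (x' - x) := by
      rw [hl]; field_simp; ring
    have E1 : V.EQ (d - V.w (x' - x)) (l + s + W.a₁) := by
      rw [e1]; simpa using ((Eu.add_gt hs).mul EX').div ED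
    have E2 : V.EQ (d - V.w (x' - x)) (l - s) := by
      rw [e2]
      refine QVal.EQ.div ?_ ED
      exact QVal.EQ.gt_add (by simpa using hs.mul_ge EX'.ge') (by simpa using Eu.mul EX)
    have key : W.addX x' x l - e = (l - s) * (l + s + W.a₁) + (β / (x - e) - (x' - e)) := by
      simp only [addX]; linear_combination h1
    rw [key]
    have E3 : V.EQ (2 * (d - V.w (x' - x))) ((l - s) * (l + s + W.a₁)) :=
      (E2.mul E1).congr (by ring)
    have G : V.GT 0 (β / (x - e) - (x' - e)) :=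
      ((C.Eβ.div EX).gt (by linarith)).sub (EX'.gt hd0)
    exact (E3.add_gt (G.mono (by linarith))).not_gt (by linarith)

/-- a point whose shifted `x`-coordinate is a unit has nonsingular reduction. -/
lemma nonsing_red' {x y : K} (h : W.Equation x y) (EX : V.EQ 0 (x - e)) :
    V.EQ 0 (2 * y + W.a₁ * x + W.a₃) ∨
      V.EQ 0 (3 * x ^ 2 + 2 * W.a₂ * x + W.a₄ - W.a₁ * y) := by
  have hx : V.GE 0 x := by simpa using EX.ge'.add C.he
  have hy : V.GE 0 y := y_integral C.a1 C.a2 C.a3 C.a4 C.a6 h hx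
  have G2 : V.GE 0 (2 : K) := QVal.GE.ofNat 2
  have G3 : V.GE 0 (3 : K) := QVal.GE.ofNat 3
  have m : ∀ {x y : K}, V.GE 0 x → V.GE 0 y → V.GE 0 (x * y) := fun hx hy => by
    simpa using hx.mul hy
  have GF : V.GE 0 (2 * y + W.a₁ * x + W.a₃) := ((m G2 hy).add (m C.a1 hx)).add C.a3
  have GG : V.GE 0 (3 * x ^ 2 + 2 * W.a₂ * x + W.a₄ - W.a₁ * y) :=
    (((m G3 (hx.pow 2)).add (m (m G2 C.a2) hx)).add C.a4).sub (m C.a1 hy)
  by_contra hcon
  rw [not_or] at hcon
  have F := GF.gt_of_not_EQ hcon.1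
  have G := GG.gt_of_not_EQ hcon.2
  have hsh := C.shift_eq h
  have id1 : W.a₁ * (2 * y + W.a₁ * x + W.a₃) +
      2 * (3 * x ^ 2 + 2 * W.a₂ * x + W.a₄ - W.a₁ * y) =
      6 * (x - e) ^ 2 + (W.b₂ + 12 * e) * (x - e) + 2 * β := by
    rw [C.hβ]; simp only [WeierstrassCurve.b₂]; linear_combination W.a₁ * C.h3
  have id2 : (2 * y + W.a₁ * x + W.a₃) * (2 * y + W.a₁ * x + W.a₃) =
      4 * (x - e) ^ 3 + (W.b₂ + 12 * e) * (x - e) ^ 2 + 4 * β * (x - e) := by
    simp only [WeierstrassCurve.b₂]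
    linear_combination 4 * hsh + (4 * (y - t) + 2 * W.a₁ * (x - e) +
      (2 * t + W.a₁ * e + W.a₃)) * C.h3
  have g1 : V.GT 0 (6 * (x - e) ^ 2 + (W.b₂ + 12 * e) * (x - e) + 2 * β) := by
    rw [← id1]
    exact (by simpa using C.a1.mul_gt F : V.GT 0 _).add (by simpa using G2.mul_gt G)
  have g2 : V.GT 0 (4 * (x - e) ^ 3 + (W.b₂ + 12 * e) * (x - e) ^ 2 + 4 * β * (x - e)) := by
    rw [← id2]; simpa using F.mul_ge GF
  have gβ : V.GT 0 β := C.Eβ.gt C.hδ
  have g3 : V.GT 0 (2 * (x - e) ^ 3) := by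
    have e0 : 2 * (x - e) ^ 3 = (x - e) * (6 * (x - e) ^ 2 + (W.b₂ + 12 * e) * (x - e) + 2 * β)
        - (4 * (x - e) ^ 3 + (W.b₂ + 12 * e) * (x - e) ^ 2 + 4 * β * (x - e))
        + 2 * (x - e) * β := by ring
    rw [e0]
    exact ((by simpa using EX.ge'.mul_gt g1 : V.GT 0 _).sub g2).add
      (by simpa using (m G2 EX.ge').mul_gt gβ)
  have g4 : V.GT 0 (2 : K) := by
    simpa using QVal.GT.of_mul_eq rfl (EX.pow 3) g3
  have g5 : V.GT 0 ((W.b₂ + 12 * e) * (x - e)) := by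
    have e0 : (W.b₂ + 12 * e) * (x - e) =
        (6 * (x - e) ^ 2 + (W.b₂ + 12 * e) * (x - e) + 2 * β) - 2 * (3 * (x - e) ^ 2 + β) := by
      ring
    rw [e0]
    exact g1.sub (by simpa using g4.mul_ge ((m G3 (EX.ge'.pow 2)).add gβ.ge))
  exact (by simpa using C.Eb2.mul EX : V.EQ 0 _).not_gt le_rfl g5

lemma InE1_Φ {R : W.Point} (hR : InE1 V e R) : InE1 V e (Φ R) := by
  rcases R with _ | ⟨x, y, h⟩
  · left; exact map_zero Φ
  · obtain ⟨h', hΦ⟩ := C.Φsome x y h
    have hR' := hR.resolve_left (Point.some_ne_zero h)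
    rw [xi_some] at hR'
    obtain ⟨h0, hw⟩ := QVal.not_GE_iff.mp hR'
    right
    rw [hΦ, xi_some]
    have : σ x - e = σ (x - e) := by rw [map_sub, C.σe]
    rw [this]
    exact QVal.not_GE_iff.mpr ⟨(map_ne_zero σ).mpr h0, by rw [C.σw _ h0]; exact hw⟩

lemma InE1_sub {P Q : W.Point} (hP : InE1 V e P) (hQ : InE1 V e Q) : InE1 V e (P - Q) := by
  obtain ⟨b2, b4, b6, b8⟩ := b_GE C.a1 C.a2 C.a3 C.a4 C.a6
  rw [inE1_iff C.he] at hP hQ ⊢
  exact inE1_sub b2 b4 b6 b8 hP hQ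

/-- points of the identity component are moved by an element of the kernel of reduction. -/
lemma sub_InE1_of_not_GT {R : W.Point} (hR : R = 0 ∨ ¬ V.GT 0 (xi e R)) :
    InE1 V e (Φ R - R) := by
  rcases R with _ | ⟨x, y, hxy⟩
  · left
    have : Φ Point.zero = 0 := map_zero Φ
    rw [this]; rfl
  have hR := hR.resolve_left (Point.some_ne_zero hxy)
  rw [xi_some] at hR
  obtain ⟨h0, hw⟩ := QVal.not_GT_iff.mp hR
  rcases lt_or_eq_of_le hw with hw | hw
  · have h1 : InE1 V e (Point.some x y hxy) :=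
      Or.inr (by rw [xi_some]; exact QVal.not_GE_iff.mpr ⟨h0, hw⟩)
    exact C.InE1_sub (C.InE1_Φ h1) h1
  · have EX : V.EQ 0 (x - e) := ⟨h0, hw⟩
    have hx : V.GE 0 x := by simpa using EX.ge'.add C.he
    have hy := y_integral C.a1 C.a2 C.a3 C.a4 C.a6 hxy.1 hx
    obtain ⟨h', hΦ⟩ := C.Φsome x y hxy
    rw [hΦ]
    exact InE1_sub_of_close C.a1 C.a2 C.a3 C.he hxy h' hx hy (C.σm x hx) (C.σm y hy)
      (C.nonsing_red' hxy.1 EX)

lemma xi_add_T {x y : K} (h : W.Nonsingular x y) (hX : x - e ≠ 0) :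
    Point.some x y h + Point.some e t C.hns ≠ 0 ∧
      xi e (Point.some x y h + Point.some e t C.hns) = β / (x - e) := by
  have hx : x ≠ e := sub_ne_zero.mp hX
  have h1 := C.slope_eq h.1 hX
  rw [Point.add_of_X_ne hx]
  refine ⟨Point.some_ne_zero _, ?_⟩
  rw [xi_some, slope_of_X_ne hx]
  simp only [addX]
  linear_combination h1

lemma Φ_T : Φ (Point.some e t C.hns) = Point.some e t C.hns := by
  obtain ⟨h', hΦ⟩ := C.Φsome e t C.hns
  rw [hΦ]
  simp only [C.σe, C.σt]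

/-- **L4**: `Φ Q - Q` lies on the identity component. -/
theorem node_main (Q : W.Point) : Φ Q - Q = 0 ∨ ¬ V.GT 0 (xi e (Φ Q - Q)) := by
  have weaken : ∀ {D : W.Point}, InE1 V e D → D = 0 ∨ ¬ V.GT 0 (xi e D) := fun hD =>
    hD.imp id fun h1 h2 => h1 h2.ge
  rcases Q with _ | ⟨x, y, h⟩
  · left
    have : Φ Point.zero = 0 := map_zero Φ
    rw [this]; rfl
  by_cases hX : x - e = 0
  · left
    have hsh := C.shift_eq h.1
    rw [hX] at hsh
    have hy : y - t = 0 := by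
      have : (y - t) ^ 2 = 0 := by linear_combination hsh
      exact pow_eq_zero_iff (two_ne_zero) |>.mp this
    have hx' : x = e := sub_eq_zero.mp hX
    have hy' : y = t := sub_eq_zero.mp hy
    subst hx' hy'
    rw [C.Φ_T, sub_self]
  have EX : V.EQ (V.w (x - e)) (x - e) := QVal.EQ.mk' hX
  rcases le_or_gt (V.w (x - e)) 0 with hd | hd
  · exact weaken (C.sub_InE1_of_not_GT (Or.inr (by
      rw [xi_some]; exact QVal.not_GT_iff.mpr ⟨hX, hd⟩)))
  rcases lt_or_ge (V.w (x - e)) δ with hdδ | hdδ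
  · obtain ⟨h', hΦ⟩ := C.Φsome x y h
    rw [hΦ]
    have e1 : σ x - e = σ (x - e) := by rw [map_sub, C.σe]
    have e2 : σ y - t = σ (y - t) := by rw [map_sub, C.σt]
    refine C.node_sub h h' hd hdδ EX ?_ ?_
    · rw [e1]; exact ⟨(map_ne_zero σ).mpr hX, C.σw _ hX⟩
    · rw [e1, e2, ← map_div₀]
      exact C.σm _ (C.slope_GE h.1 hd.le hdδ.le EX)
  · obtain ⟨hne, hxi⟩ := C.xi_add_T h hX
    have := C.sub_InE1_of_not_GT (R := Point.some x y h + Point.some e t C.hns) (Or.inr (by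
      rw [hxi]; exact (C.Eβ.div EX).not_gt (by linarith)))
    rw [map_add, C.Φ_T, add_sub_add_right_eq_sub] at this
    exact weaken this

/-- `(Φ - 1)² Q` lies in the kernel of reduction. -/
theorem node_sq (Q : W.Point) : InE1 V e (Φ (Φ Q - Q) - (Φ Q - Q)) :=
  C.sub_InE1_of_not_GT (C.node_main Q)

end NodeCtx

end Fermat.Agent.S13
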